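import Fermat.Agent.S20.Basics
import Fermat.Agent.S24.Comb
import Fermat.Agent.S20.Group.Transfer

/-!
# S20 / chapter G: index, fixed points of the elliptic elements and orbits of `T` on the cosets.

Transfer of the counts proved in `Fermat/Agent/S24/Comb.lean` (for `SL(2,ℤ) ⧸ Γ₀(N)` with the
left-multiplication action) to the permutations `perm N γ` of `Fin (psi N)`.
-/

set_option autoImplicit false

open UpperHalfPlane ModularForm CongruenceSubgroup
open scoped MatrixGroups ModularForm Manifold
open Fermat.Agent.S23

namespace Fermat.Agent.S20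

variable (N : ℕ) [NeZero N]

theorem psi_eq_dedekindPsi : psi N = ModularCurve.dedekindPsi N := by
  rw [GroupAux.psi_eq_cosetCard, Fermat.Agent.S24.cosetCard_eq]

theorem card_fixed_S :
    (Finset.univ.filter fun j => perm N ModularGroup.S j = j).card = ModularCurve.nuTwo N := by
  rw [GroupAux.card_fixed_perm, Fermat.Agent.S24.card_fixedBy_S]

theorem card_fixed_U :
    (Finset.univ.filter fun j => perm N Umat j = j).card = ModularCurve.nuThree N := by
  rw [GroupAux.card_fixed_perm, Umat, Fermat.Agent.S24.card_fixedBy_ST]

theorem numOrbits_T : numOrbits (perm N ModularGroup.T) = ModularCurve.cuspCount N := by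
  rw [GroupAux.numOrbits_perm, Fermat.Agent.S24.orbCard_T]

end Fermat.Agent.S20
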