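import Fermat.Agent.S20.Defs
import Fermat.Agent.S20.Basics.Sturm
import Fermat.Agent.S20.Basics.Weights
import Fermat.Agent.S20.Basics.Constr

/-!
# S20 / Basics: the permutation action on conjugates, products with level-one forms,
constructors for modular forms, finite-dimensionality.
-/

set_option autoImplicit false

open UpperHalfPlane ModularForm CongruenceSubgroup
open scoped MatrixGroups ModularForm Manifold
open Fermat.Agent.S23

namespace Fermat.Agent.S20

variable {N : ℕ} [NeZero N]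

/-- Slashing a conjugate by `γ : SL(2,ℤ)` gives the conjugate with index `perm N γ i`. -/
theorem cj_slash' {k : ℤ} {F : Type*} [FunLike F ℍ ℂ] [SlashInvariantFormClass F (Gam N) k]
    (f : F) (γ : SL(2, ℤ)) (i : Fin (psi N)) : (cj f i) ∣[k] γ = cj f (perm N γ i) := by
  have hh : (Matrix.SpecialLinearGroup.mapGL ℝ γ) ∈ 𝒮ℒ := ⟨γ, rfl⟩
  unfold cj
  refine (SlashInvariantForm.quotientFunc_smul (ℋ := 𝒮ℒ) f hh (quoEquiv N i)).trans ?_
  simp [perm]

/-- Pointwise form of `cj_slash'`. -/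
theorem cj_smul_apply {k : ℤ} {F : Type*} [FunLike F ℍ ℂ] [SlashInvariantFormClass F (Gam N) k]
    (f : F) (γ : SL(2, ℤ)) (i : Fin (psi N)) (z : ℍ) :
    cj f i (γ • z) = denom γ z ^ k * cj f (perm N γ i) z := by
  have h := congrFun (cj_slash' f γ i) z
  rw [ModularForm.SL_slash_apply] at h
  rw [← h, zpow_neg, mul_comm, mul_assoc, inv_mul_cancel₀ (zpow_ne_zero _ (denom_ne_zero _ _)),
    mul_one]

/-- `SL(2,ℤ) → 𝒮ℒ`. -/
private noncomputable def rr : SL(2, ℤ) →* ↥𝒮ℒ :=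
  (Matrix.SpecialLinearGroup.mapGL ℝ : SL(2, ℤ) →* GL (Fin 2) ℝ).rangeRestrict

private theorem rr_surjective : Function.Surjective rr :=
  MonoidHom.rangeRestrict_surjective _

private theorem coe_rr (γ : SL(2, ℤ)) :
    ((rr γ : ↥𝒮ℒ) : GL (Fin 2) ℝ) = Matrix.SpecialLinearGroup.mapGL ℝ γ :=
  rfl

private theorem perm_apply (γ : SL(2, ℤ)) (i : Fin (psi N)) :
    perm N γ i = (quoEquiv N).symm ((rr γ)⁻¹ • quoEquiv N i) := rfl

omit [NeZero N] in
private theorem rr_mem_iff (γ : SL(2, ℤ)) :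
    rr γ ∈ (Gam N).subgroupOf 𝒮ℒ ↔ γ ∈ CongruenceSubgroup.Gamma0 N := by
  rw [Subgroup.mem_subgroupOf, coe_rr]
  constructor
  · rintro ⟨γ', h1, h2⟩
    have := Matrix.SpecialLinearGroup.mapGL_injective h2
    exact this ▸ h1
  · intro h
    exact ⟨γ, h, rfl⟩

omit [NeZero N] in
private theorem neg_one_mem : (-1 : SL(2, ℤ)) ∈ CongruenceSubgroup.Gamma0 N := by
  rw [CongruenceSubgroup.Gamma0_mem]
  simp

omit [NeZero N] in
private theorem rr_neg_one_smul (q : Quo N) : (rr (-1 : SL(2, ℤ)))⁻¹ • q = q := by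
  induction q using QuotientGroup.induction_on with
  | H h =>
    obtain ⟨γ', rfl⟩ := rr_surjective h
    change ((((rr (-1 : SL(2, ℤ)))⁻¹ * rr γ' : ↥𝒮ℒ)) : Quo N) = ((rr γ' : ↥𝒮ℒ) : Quo N)
    rw [QuotientGroup.eq]
    have : ((rr (-1 : SL(2, ℤ)))⁻¹ * rr γ')⁻¹ * rr γ' = rr (-1 : SL(2, ℤ)) := by
      rw [← map_inv, ← map_mul, ← map_inv, ← map_mul]
      congr 1
      simp
    rw [this, rr_mem_iff]
    exact neg_one_mem

theorem perm_one : perm N 1 = 1 := by
  ext i
  rw [perm_apply, map_one, inv_one, one_smul, Equiv.symm_apply_apply]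
  rfl

theorem perm_mul (γ₁ γ₂ : SL(2, ℤ)) : perm N (γ₁ * γ₂) = perm N γ₂ * perm N γ₁ := by
  ext i
  rw [Equiv.Perm.mul_apply, perm_apply, perm_apply, perm_apply, Equiv.apply_symm_apply,
    map_mul, mul_inv_rev, mul_smul]

theorem perm_neg (γ : SL(2, ℤ)) : perm N (-γ) = perm N γ := by
  have h1 : -γ = γ * (-1) := by simp
  rw [h1, perm_mul]
  have h2 : perm N (-1) = 1 := by
    ext i
    rw [perm_apply, rr_neg_one_smul, Equiv.symm_apply_apply]
    rfl
  rw [h2, one_mul]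

theorem perm_i0_iff (γ : SL(2, ℤ)) :
    perm N γ (i0 N) = i0 N ↔ γ ∈ CongruenceSubgroup.Gamma0 N := by
  rw [perm_apply]
  unfold i0
  rw [Equiv.apply_symm_apply, (quoEquiv N).symm.injective.eq_iff]
  change ((((rr γ)⁻¹ * 1 : ↥𝒮ℒ)) : Quo N) = ((1 : ↥𝒮ℒ) : Quo N) ↔ _
  rw [QuotientGroup.eq, mul_one, mul_one, inv_inv, rr_mem_iff]

theorem exists_perm_i0 (j : Fin (psi N)) : ∃ γ : SL(2, ℤ), perm N γ (i0 N) = j := by
  obtain ⟨h, hh⟩ := QuotientGroup.mk_surjective (quoEquiv N j)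
  obtain ⟨γ', rfl⟩ := rr_surjective h
  refine ⟨γ'⁻¹, ?_⟩
  rw [perm_apply]
  unfold i0
  rw [Equiv.apply_symm_apply, Equiv.symm_apply_eq, ← hh, map_inv, inv_inv]
  change ((((rr γ') * 1 : ↥𝒮ℒ)) : Quo N) = _
  rw [mul_one]

/-- The conjugate with index `perm N γ (i0 N)` is `f ∣[k] γ`. -/
theorem cj_eq_slash {k : ℤ} {F : Type*} [FunLike F ℍ ℂ] [SlashInvariantFormClass F (Gam N) k]
    (f : F) (γ : SL(2, ℤ)) : cj f (perm N γ (i0 N)) = (f : ℍ → ℂ) ∣[k] γ := by
  rw [← cj_slash', cj_i0]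

/-- Transformation law of the matrix of conjugates. -/
theorem Vmat_smul (κ : Fin (psi N) → ℕ) (f : ∀ i, ModularForm (Gam N) (κ i)) (γ : SL(2, ℤ))
    (z : ℍ) (i j : Fin (psi N)) :
    Vmat κ f (γ • z) i j = denom γ z ^ (κ i : ℤ) * Vmat κ f z i (perm N γ j) := by
  simp only [Vmat, Matrix.of_apply]
  exact cj_smul_apply (f i) γ j z

/-- Product of a level-one form and a form of level `Γ₀(N)`. -/
theorem exists_mulL1 {e k : ℤ} (a : ModularForm 𝒮ℒ e) (f : ModularForm (Gam N) k) :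
    ∃ g : ModularForm (Gam N) (e + k), ∀ z : ℍ, g z = a z * f z :=
  BasicsAux.exists_mulL1 a f

/-- Conjugates of a product with a level-one form. -/
theorem cj_of_eq_mul {e k k' : ℤ} (a : ModularForm 𝒮ℒ e) (f : ModularForm (Gam N) k)
    (g : ModularForm (Gam N) k') (hk : k' = e + k) (h : ∀ z : ℍ, g z = a z * f z)
    (j : Fin (psi N)) (z : ℍ) : cj g j z = a z * cj f j z :=
  BasicsAux.cj_of_eq_mul a f g hk h j z

/-- Conjugates only depend on the underlying function and the weight (pointwise version,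
allowing different carrier types). -/
theorem cj_congr' {k : ℤ} {F F' : Type*} [FunLike F ℍ ℂ] [SlashInvariantFormClass F (Gam N) k]
    [FunLike F' ℍ ℂ] [SlashInvariantFormClass F' (Gam N) k] (f : F) (f' : F')
    (h : ∀ z, f z = f' z) (j : Fin (psi N)) (z : ℍ) : cj f j z = cj f' j z := by
  rw [cj_congr f f' (funext h) j]

theorem cj_add {k : ℤ} (f g : ModularForm (Gam N) k) (j : Fin (psi N)) (z : ℍ) :
    cj (f + g) j z = cj f j z + cj g j z := by
  unfold cj
  induction (quoEquiv N j) using Quotient.inductionOn with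
  | h r =>
    simp only [SlashInvariantForm.quotientFunc_mk, FunLike.coe_add, SlashAction.add_slash,
      Pi.add_apply]

theorem cj_smul {k : ℤ} (c : ℂ) (f : ModularForm (Gam N) k) (j : Fin (psi N)) (z : ℍ) :
    cj (c • f) j z = c * cj f j z := by
  unfold cj
  induction (quoEquiv N j) using Quotient.inductionOn with
  | h r =>
    obtain ⟨r, γ, rfl⟩ := r
    simp only [SlashInvariantForm.quotientFunc_mk]
    have h1 : ((Matrix.SpecialLinearGroup.mapGL ℝ) γ)⁻¹ = Matrix.SpecialLinearGroup.mapGL ℝ γ⁻¹ :=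
      (map_inv _ _).symm
    simp only [h1]
    change (((c • f : ModularForm (Gam N) k) : ℍ → ℂ) ∣[k] γ⁻¹) z = c * (((f : ℍ → ℂ) ∣[k] γ⁻¹) z)
    rw [ModularForm.SL_slash_apply, ModularForm.SL_slash_apply]
    simp [mul_assoc]

/-- Conjugates of a finite sum of forms given pointwise. -/
theorem cj_of_eq_sum {k : ℤ} {ι : Type*} (s : Finset ι) (g : ModularForm (Gam N) k)
    (f : ι → ModularForm (Gam N) k) (h : ∀ z : ℍ, g z = ∑ i ∈ s, f i z)
    (j : Fin (psi N)) (z : ℍ) : cj g j z = ∑ i ∈ s, cj (f i) j z := by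
  unfold cj
  induction (quoEquiv N j) using Quotient.inductionOn with
  | h r =>
    simp only [SlashInvariantForm.quotientFunc_mk]
    have hg : (g : ℍ → ℂ) = ∑ i ∈ s, (f i : ℍ → ℂ) := by
      ext z
      rw [h z, Finset.sum_apply]
    rw [hg, SlashAction.sum_slash, Finset.sum_apply]

theorem psi_eq_index : psi N = (CongruenceSubgroup.Gamma0 N).index :=
  BasicsAux.psi_eq_index

theorem finiteDimensional_modularForm (K : ℤ) :
    FiniteDimensional ℂ (ModularForm (Gam N) K) :=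
  BasicsAux.finiteDimensional_modularForm K

theorem finrank_modularForm_le (K : ℤ) :
    Module.finrank ℂ (ModularForm (Gam N) K) ≤ (K * (psi N : ℤ)).toNat / 12 + 1 :=
  BasicsAux.finrank_modularForm_le K

theorem modularForm_neg_weight {K : ℤ} (hK : K < 0) (F : ModularForm (Gam N) K) : F = 0 :=
  BasicsAux.modularForm_neg_weight hK F

theorem modularForm_odd_weight {K : ℤ} (hK : Odd K) (F : ModularForm (Gam N) K) : F = 0 :=
  BasicsAux.modularForm_odd_weight hK F

theorem modularForm_weight_zero (F : ModularForm (Gam N) 0) : ∃ c : ℂ, ∀ z : ℍ, F z = c :=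
  BasicsAux.modularForm_weight_zero F

/-- Constructor: a holomorphic function with the `Γ₀(N)`-transformation law of weight `K`, all of
whose `SL(2,ℤ)`-translates are bounded at `i∞`, is a modular form. -/
theorem exists_modularForm_of (K : ℤ) (F : ℍ → ℂ) (hol : MDiff F)
    (inv : ∀ γ ∈ CongruenceSubgroup.Gamma0 N, ∀ z : ℍ, F (γ • z) = denom γ z ^ K * F z)
    (bdd : ∀ γ : SL(2, ℤ), IsBoundedAtImInfty (F ∣[K] γ)) :
    ∃ g : ModularForm (Gam N) K, (g : ℍ → ℂ) = F :=
  BasicsAux.exists_modularForm_of K F hol inv bdd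

/-- Constructor for cusp forms. -/
theorem exists_cuspForm_of (K : ℤ) (F : ℍ → ℂ) (hol : MDiff F)
    (inv : ∀ γ ∈ CongruenceSubgroup.Gamma0 N, ∀ z : ℍ, F (γ • z) = denom γ z ^ K * F z)
    (zero : ∀ γ : SL(2, ℤ), IsZeroAtImInfty (F ∣[K] γ)) :
    ∃ g : CuspForm (Gam N) K, (g : ℍ → ℂ) = F :=
  BasicsAux.exists_cuspForm_of K F hol inv zero

/-- Constructor for level-one forms. -/
theorem exists_levelOne_of (K : ℤ) (F : ℍ → ℂ) (hol : MDiff F)
    (inv : ∀ γ : SL(2, ℤ), ∀ z : ℍ, F (γ • z) = denom γ z ^ K * F z)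
    (bdd : IsBoundedAtImInfty F) : ∃ g : ModularForm 𝒮ℒ K, (g : ℍ → ℂ) = F :=
  BasicsAux.exists_levelOne_of K F hol inv bdd

/-- The trace of a product (cusp form) × (modular form) is `Δ` times a level-one form. -/
theorem exists_trace_mul {k₁ k₂ : ℤ} (s : CuspForm (Gam N) k₁) (f : ModularForm (Gam N) k₂) :
    ∃ b : ModularForm 𝒮ℒ (k₁ + k₂ - 12),
      ∀ z : ℍ, ∑ j, cj s j z * cj f j z = Δf z * b z :=
  BasicsAux.exists_trace_mul s f

end Fermat.Agent.S20
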