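import Fermat.Agent.S20.WProps
import Fermat.Agent.S20.Dim.Indep
import Fermat.Agent.S20.Dim.Span

/-!
# S20 / chapter E4: `S_2(Γ₀(N))` has the dual forms `g i` with `κ i = 10` as a basis.
-/

set_option autoImplicit false

open UpperHalfPlane ModularForm CongruenceSubgroup
open scoped MatrixGroups ModularForm Manifold
open Fermat.Agent.S23

namespace Fermat.Agent.S20

variable {N : ℕ} [NeZero N]

/-- Transport of a cusp form along an equality of weights; the conjugates do not change. -/
private theorem cast_cusp {k k' : ℤ} (hk : k = k') (g : CuspForm (Gam N) k) :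
    ∃ h : CuspForm (Gam N) k', ∀ (j : Fin (psi N)) (z : ℍ), cj h j z = cj g j z := by
  subst hk
  exact ⟨g, fun _ _ => rfl⟩

/-- The dual forms of weight `2`. -/
private theorem exists_h (κ : Fin (psi N) → ℕ) (f : ∀ i, ModularForm (Gam N) (κ i))
    (hfree : IsFreeBasis κ f) :
    ∃ h : {i : Fin (psi N) // κ i = 10} → CuspForm (Gam N) 2,
      ∀ (i : {i : Fin (psi N) // κ i = 10}) (j : Fin (psi N)) (z : ℍ),
        cj (h i) j z = Δf z * (Vmat κ f z)⁻¹ j i := by
  obtain ⟨g, hg⟩ := exists_dual κ f hfree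
  have key : ∀ i : {i : Fin (psi N) // κ i = 10}, ∃ h : CuspForm (Gam N) 2,
      ∀ (j : Fin (psi N)) (z : ℍ), cj h j z = cj (g i) j z := fun i =>
    cast_cusp (by rw [i.2]; norm_num) (g i)
  choose h hh using key
  exact ⟨h, fun i j z => by rw [hh, hg]⟩

theorem finrank_S2 (κ : Fin (psi N) → ℕ) (f : ∀ i, ModularForm (Gam N) (κ i))
    (hfree : IsFreeBasis κ f) :
    Module.finrank ℂ (CuspForm (Gam N) 2) = (Finset.univ.filter fun i => κ i = 10).card := by
  classical
  obtain ⟨h, hh⟩ := exists_h κ f hfree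
  have hli := DimAux.linearIndependent_h κ f hfree h hh
  have hsp := DimAux.span_h κ f hfree h hh
  rw [Module.finrank_eq_card_basis (Module.Basis.mk hli hsp), Fintype.card_subtype]

end Fermat.Agent.S20
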