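import Mathlib

/-!
# S20: the arithmetic of generator weights
-/

set_option autoImplicit false

namespace Fermat.Agent.S20

/-- The pointwise identity behind `numerics`: for an even number `k ≤ 10`,
`12·[k = 10] + 6·[4 ∣ k] + 6·[6 ∣ k] + 2·[k ≡ 2 (6)] = 12·[k = 0] + k + 2·[k ≡ 4 (6)]`. -/
private theorem numerics_pointwise (k : ℕ) (heven : Even k) (hle : k ≤ 10) :
    12 * (if k = 10 then 1 else 0) + 6 * (if k % 4 = 0 then 1 else 0)
        + 6 * (if k % 6 = 0 then 1 else 0) + 2 * (if k % 6 = 2 then 1 else 0)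
      = 12 * (if k = 0 then 1 else 0) + k + 2 * (if k % 6 = 4 then 1 else 0) := by
  obtain ⟨m, rfl⟩ := heven
  have hm : m ≤ 5 := by omega
  interval_cases m <;> rfl

theorem numerics {n : ℕ} (κ : Fin n → ℕ) (c F2 F3 : ℕ)
    (heven : ∀ i, Even (κ i)) (hle : ∀ i, κ i ≤ 10)
    (h0 : (Finset.univ.filter fun i => κ i = 0).card = 1)
    (hsum : ∑ i, κ i + 6 * c = 6 * n)
    (h4 : 2 * (Finset.univ.filter fun i => κ i % 4 = 0).card = n + F2)
    (h6 : 3 * (Finset.univ.filter fun i => κ i % 6 = 0).card = n + 2 * F3)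
    (h6' : (Finset.univ.filter fun i => κ i % 6 = 2).card =
      (Finset.univ.filter fun i => κ i % 6 = 4).card) :
    ((Finset.univ.filter fun i => κ i = 10).card : ℚ) =
      1 + (n : ℚ) / 12 - (F2 : ℚ) / 4 - (F3 : ℚ) / 3 - (c : ℚ) / 2 := by
  have hs : ∑ i, (12 * (if κ i = 10 then 1 else 0) + 6 * (if κ i % 4 = 0 then 1 else 0)
        + 6 * (if κ i % 6 = 0 then 1 else 0) + 2 * (if κ i % 6 = 2 then 1 else 0))
      = ∑ i, (12 * (if κ i = 0 then 1 else 0) + κ i + 2 * (if κ i % 6 = 4 then 1 else 0)) :=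
    Finset.sum_congr rfl fun i _ => numerics_pointwise (κ i) (heven i) (hle i)
  simp only [Finset.sum_add_distrib, ← Finset.mul_sum, ← Finset.card_filter] at hs
  have hN : 12 * (Finset.univ.filter fun i => κ i = 10).card + 3 * F2 + 4 * F3 + 6 * c
      = 12 + n := by
    omega
  have hQ : (12 * ((Finset.univ.filter fun i => κ i = 10).card : ℚ) + 3 * F2 + 4 * F3 + 6 * c)
      = 12 + n := by
    exact_mod_cast hN
  linarith

end Fermat.Agent.S20
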