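import Fermat.Agent.S20.Div
import Fermat.Agent.S20.Cusp.LInf
import Fermat.Agent.S20.Cusp.DetE

/-!
# S20 / chapter C: behaviour of the matrix of conjugates of a free basis at the cusp `i∞`
-/

set_option autoImplicit false

open UpperHalfPlane ModularForm CongruenceSubgroup
open scoped MatrixGroups ModularForm Manifold
open Fermat.Agent.S23

namespace Fermat.Agent.S20

variable {N : ℕ} [NeZero N]

namespace CuspAux

/-- The limit matrix `L_∞` exists. -/
private theorem cusp_exists_Linf (κ : Fin (psi N) → ℕ) (f : ∀ i, ModularForm (Gam N) (κ i)) :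
    ∃ Linf : Matrix (Fin (psi N)) (Fin (psi N)) ℂ,
      ∀ i j, Filter.Tendsto (fun z : ℍ => tw (f i) z j) atImInfty (nhds (Linf i j)) := by
  choose L hL using fun i j => tw_tendsto (f i) j
  exact ⟨Matrix.of L, hL⟩

private theorem cusp_tendsto_Lmat (κ : Fin (psi N) → ℕ) (f : ∀ i, ModularForm (Gam N) (κ i))
    (Linf : Matrix (Fin (psi N)) (Fin (psi N)) ℂ)
    (hL : ∀ i j, Filter.Tendsto (fun z : ℍ => tw (f i) z j) atImInfty (nhds (Linf i j))) :
    Filter.Tendsto (fun z : ℍ => Lmat κ f z) atImInfty (nhds Linf) := by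
  refine tendsto_pi_nhds.mpr fun i => tendsto_pi_nhds.mpr fun j => ?_
  simpa [Lmat_apply] using hL i j

/-- `V = L · E(q_N)`. -/
private theorem cusp_Vmat_eq (κ : Fin (psi N) → ℕ) (f : ∀ i, ModularForm (Gam N) (κ i)) (z : ℍ) :
    Vmat κ f z = Lmat κ f z * Et N (MT N) (qN N z) := by
  unfold Lmat
  rw [Matrix.mul_assoc, Et_mul (NeZero.ne N) MT_pow, inv_mul_cancel₀ (qN_ne_zero N z),
    Et_one (NeZero.ne N) MT_pow, Matrix.mul_one]

/-- `Δ · E(q_N)⁻¹ → 0` at `i∞`. -/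
private theorem cusp_tendsto_Delta_mul_Et (j j' : Fin (psi N)) :
    Filter.Tendsto (fun z : ℍ => Δf z * Et N (MT N) (qN N z)⁻¹ j j') atImInfty (nhds 0) := by
  obtain ⟨C, A, hΔ⟩ := Delta_upper
  obtain ⟨C₀, hC₀, hE⟩ := Et_bound N (MT N)
  have hN : (N : ℝ) ≠ 0 := Nat.cast_ne_zero.mpr (NeZero.ne N)
  have hNpos : (0 : ℝ) < N := Nat.cast_pos.mpr (Nat.pos_of_ne_zero (NeZero.ne N))
  have hb : ∀ z : ℍ, A ≤ z.im → ‖Δf z * Et N (MT N) (qN N z)⁻¹ j j'‖
      ≤ |C| * C₀ * Real.exp (-(2 * Real.pi * z.im / N)) := by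
    intro z hz
    rw [norm_mul]
    have h1 : ‖Δf z‖ ≤ |C| * Real.exp (-(2 * Real.pi * z.im)) :=
      (hΔ z hz).trans (mul_le_mul_of_nonneg_right (le_abs_self C) (Real.exp_pos _).le)
    have h2 := (hE (qN N z)⁻¹ j j').2 (one_le_norm_qN_inv z)
    rw [norm_qN_inv] at h2
    have h3 : Real.exp (-(2 * Real.pi * z.im)) * Real.exp (2 * Real.pi * z.im / N) ^ (N - 1)
        = Real.exp (-(2 * Real.pi * z.im / N)) := by
      rw [← Real.exp_nat_mul, ← Real.exp_add]
      congr 1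
      have hc : ((N - 1 : ℕ) : ℝ) = (N : ℝ) - 1 := by
        rw [Nat.cast_sub (Nat.one_le_iff_ne_zero.mpr (NeZero.ne N))]; simp
      rw [hc]
      field_simp
      ring
    calc ‖Δf z‖ * ‖Et N (MT N) (qN N z)⁻¹ j j'‖
        ≤ (|C| * Real.exp (-(2 * Real.pi * z.im)))
            * (C₀ * Real.exp (2 * Real.pi * z.im / N) ^ (N - 1)) :=
          mul_le_mul h1 h2 (norm_nonneg _) (mul_nonneg (abs_nonneg C) (Real.exp_pos _).le)
      _ = |C| * C₀ * Real.exp (-(2 * Real.pi * z.im / N)) := by rw [← h3]; ring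
  have hlim : Filter.Tendsto (fun z : ℍ => |C| * C₀ * Real.exp (-(2 * Real.pi * z.im / N)))
      atImInfty (nhds 0) := by
    have h0 : Filter.Tendsto (fun y : ℝ => 2 * Real.pi * y / N) Filter.atTop Filter.atTop := by
      have hpos : (0 : ℝ) < 2 * Real.pi / N := div_pos (by positivity) hNpos
      refine (Filter.tendsto_id.const_mul_atTop hpos).congr fun y => ?_
      simp only [id]
      ring
    have h1 : Filter.Tendsto (fun z : ℍ => Real.exp (-(2 * Real.pi * z.im / N)))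
        atImInfty (nhds 0) :=
      Real.tendsto_exp_neg_atTop_nhds_zero.comp (h0.comp Filter.tendsto_comap)
    simpa using h1.const_mul (|C| * C₀)
  refine squeeze_zero_norm' ?_ hlim
  exact (atImInfty_mem _).mpr ⟨A, hb⟩

end CuspAux

open CuspAux

/-- All entries of `Δ • V⁻¹` tend to `0` at `i∞`. -/
theorem isZeroAtImInfty_Delta_mul_inv (κ : Fin (psi N) → ℕ)
    (f : ∀ i, ModularForm (Gam N) (κ i)) (hfree : IsFreeBasis κ f) (i j : Fin (psi N)) :
    IsZeroAtImInfty (fun z : ℍ => Δf z * (Vmat κ f z)⁻¹ j i) := by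
  obtain ⟨Linf, hL⟩ := cusp_exists_Linf κ f
  have hdet : Linf.det ≠ 0 := det_Linf_ne_zero κ f hfree Linf hL
  have hinv : Filter.Tendsto (fun z : ℍ => (Lmat κ f z)⁻¹) atImInfty (nhds Linf⁻¹) := by
    have hc : ContinuousAt Ring.inverse Linf.det := by
      rw [Ring.inverse_eq_inv']
      exact continuousAt_inv₀ hdet
    exact (continuousAt_matrix_inv Linf hc).tendsto.comp (cusp_tendsto_Lmat κ f Linf hL)
  have hVinv : ∀ z : ℍ, (Vmat κ f z)⁻¹ = Et N (MT N) (qN N z)⁻¹ * (Lmat κ f z)⁻¹ := by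
    intro z
    rw [cusp_Vmat_eq κ f z, Matrix.mul_inv_rev, Et_inv (NeZero.ne N) MT_pow (qN_ne_zero N z)]
  have hsum : ∀ z : ℍ, Δf z * (Vmat κ f z)⁻¹ j i
      = ∑ j', (Δf z * Et N (MT N) (qN N z)⁻¹ j j') * (Lmat κ f z)⁻¹ j' i := by
    intro z
    rw [hVinv z, Matrix.mul_apply, Finset.mul_sum]
    exact Finset.sum_congr rfl fun j' _ => (mul_assoc _ _ _).symm
  have hzero : (0 : ℂ) = ∑ j' : Fin (psi N), 0 * Linf⁻¹ j' i := by simp
  show Filter.Tendsto _ atImInfty (nhds 0)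
  rw [hzero]
  refine Filter.Tendsto.congr (fun z => (hsum z).symm) ?_
  refine tendsto_finsetSum _ fun j' _ => (cusp_tendsto_Delta_mul_Et j j').mul ?_
  exact ((continuous_apply_apply j' i).tendsto _).comp hinv

/-- `det V ^ 2` vanishes to order exactly `psi N - #cusps` at `i∞`. -/
theorem det_sq_asymp (κ : Fin (psi N) → ℕ) (f : ∀ i, ModularForm (Gam N) (κ i))
    (hfree : IsFreeBasis κ f) :
    ∃ c : ℂ, c ≠ 0 ∧ Filter.Tendsto
      (fun z : ℍ => (Vmat κ f z).det ^ 2 / Δf z ^ (psi N - numOrbits (perm N ModularGroup.T)))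
      atImInfty (nhds c) := by
  obtain ⟨Linf, hL⟩ := cusp_exists_Linf κ f
  have hdet : Linf.det ≠ 0 := det_Linf_ne_zero κ f hfree Linf hL
  refine ⟨Linf.det ^ 2, pow_ne_zero 2 hdet, ?_⟩
  have h1 : Filter.Tendsto (fun z : ℍ => (Lmat κ f z).det) atImInfty (nhds Linf.det) :=
    (continuous_id.matrix_det.tendsto Linf).comp (cusp_tendsto_Lmat κ f Linf hL)
  have h3 : Filter.Tendsto (fun z : ℍ => (Lmat κ f z).det ^ 2
      / (Δf z / Complex.exp (2 * Real.pi * Complex.I * (z : ℂ)))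
        ^ (psi N - numOrbits (perm N ModularGroup.T)))
      atImInfty (nhds (Linf.det ^ 2 / 1 ^ (psi N - numOrbits (perm N ModularGroup.T)))) :=
    (h1.pow 2).div (tendsto_Delta_div_q.pow _) (by simp)
  rw [one_pow, div_one] at h3
  refine h3.congr fun z => ?_
  have hΔ : Δf z ≠ 0 := ModularForm.discriminant_ne_zero z
  have he : Complex.exp (2 * Real.pi * Complex.I * (z : ℂ)) ≠ 0 := Complex.exp_ne_zero _
  rw [cusp_Vmat_eq κ f z, Matrix.det_mul, mul_pow, det_Et_sq, pow_mul, qN_pow, div_pow]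
  field_simp

end Fermat.Agent.S20
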