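import Fermat.Agent.S20.Local
import Fermat.Agent.S20.Cusp
import Fermat.Agent.S20.SumW.Lemmas

/-!
# S20 / chapter E2: the discriminant identity `det V ^ 2 = c Δ ^ (psi N - #cusps)` forces the
sum of the weights of a free basis.
-/

set_option autoImplicit false

open UpperHalfPlane ModularForm CongruenceSubgroup
open scoped MatrixGroups ModularForm Manifold
open Fermat.Agent.S23

namespace Fermat.Agent.S20

variable {N : ℕ} [NeZero N]

theorem sum_weights (κ : Fin (psi N) → ℕ) (f : ∀ i, ModularForm (Gam N) (κ i))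
    (hfree : IsFreeBasis κ f) :
    ∑ i, κ i + 6 * numOrbits (perm N ModularGroup.T) = 6 * psi N := by
  obtain ⟨c, hc, hlim⟩ := det_sq_asymp κ f hfree
  have hle : numOrbits (perm N ModularGroup.T) ≤ psi N := SumWAux.numOrbits_le _
  generalize hm : psi N - numOrbits (perm N ModularGroup.T) = m at hlim
  have hD : ∀ z : ℍ, (Vmat κ f z).det ≠ 0 := det_Vmat_ne_zero κ f hfree
  have hΔ : ∀ z : ℍ, Δf z ≠ 0 := fun z => ModularForm.discriminant_ne_zero z
  have hΔm : ∀ z : ℍ, Δf z ^ m ≠ 0 := fun z => pow_ne_zero m (hΔ z)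
  have hw : 2 * ((∑ i, κ i : ℕ) : ℤ) - 12 * (m : ℤ) = 0 := by
    refine SumWAux.weight_eq_zero _ (fun z : ℍ => (Vmat κ f z).det ^ 2 / Δf z ^ m) ?_ ?_ ?_
      c hc hlim
    · -- holomorphy
      exact ((SumWAux.mdiff_det_Vmat κ f).pow 2).div (SumWAux.mdiff_Δf.pow m) hΔm
    · -- transformation law
      intro γ z
      have hd : denom γ z ≠ 0 := denom_ne_zero γ z
      have h1 : denom γ z ^ (2 * ((∑ i, κ i : ℕ) : ℤ) - 12 * (m : ℤ)) =
          denom γ z ^ (2 * ∑ i, κ i) / (denom γ z ^ (12 : ℤ)) ^ m := by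
        rw [zpow_sub₀ hd, ← zpow_natCast (denom γ z ^ (12 : ℤ)) m, ← zpow_mul,
          ← zpow_natCast (denom γ z) (2 * ∑ i, κ i)]
        push_cast
        rfl
      show (Vmat κ f (γ • z)).det ^ 2 / Δf (γ • z) ^ m = _ * ((Vmat κ f z).det ^ 2 / Δf z ^ m)
      rw [SumWAux.det_Vmat_sq_smul, SumWAux.Δf_smul, h1, mul_pow]
      have hdm : (denom γ z ^ (12 : ℤ)) ^ m ≠ 0 := pow_ne_zero m (zpow_ne_zero 12 hd)
      have := hΔm z
      field_simp
    · -- non-vanishing
      intro z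
      exact div_ne_zero (pow_ne_zero 2 (hD z)) (hΔm z)
  have hw' : 2 * ∑ i, κ i = 12 * m := by exact_mod_cast sub_eq_zero.mp hw
  omega

end Fermat.Agent.S20
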