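import Fermat.Agent.S20.Free
import Fermat.Agent.S20.SumW
import Fermat.Agent.S20.Dim
import Fermat.Agent.S20.Numerics
import Fermat.Agent.S20.Group

/-!
# S20: `dim S_2(Γ₀(N)) = genusFormula N`
-/

set_option autoImplicit false

open UpperHalfPlane ModularForm CongruenceSubgroup
open scoped MatrixGroups ModularForm Manifold
open Fermat.Agent.S23

namespace Fermat.Agent.S20

theorem finrank_eq_genusFormula (N : ℕ) [NeZero N] :
    (Module.finrank ℂ (CuspForm (Gam N) 2) : ℚ) = ModularCurve.genusFormula N := by
  obtain ⟨κ, f, hfree⟩ := exists_free_basis N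
  obtain ⟨heven, hle, h0⟩ := weights_props κ f hfree
  obtain ⟨h6, h6'⟩ := count_mod_six κ f hfree
  have h := numerics κ (numOrbits (perm N ModularGroup.T))
    (Finset.univ.filter fun j => perm N ModularGroup.S j = j).card
    (Finset.univ.filter fun j => perm N Umat j = j).card heven hle h0
    (sum_weights κ f hfree) (count_mod_four κ f hfree) h6 h6'
  rw [finrank_S2 κ f hfree, h, card_fixed_S, card_fixed_U, numOrbits_T, psi_eq_dedekindPsi]
  rfl

end Fermat.Agent.S20
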