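import Fermat.Agent.S23.Conj
import Fermat.Agent.S23.Prim
import Fermat.Agent.S23.Stab
import Fermat.Agent.S23.AlgData
import Fermat.Agent.S23.Nice
import Fermat.Prelude.Def_ModularCurve_GenusNumerics
import Fermat.Agent.S24.Ana.Defs
import Fermat.Prelude.Thm_ModularForm_sturm_bound_Gamma0

/-!
# S20: shared definitions

Proof of `dim S_2(Γ₀(N)) = genusFormula N` without Riemann–Roch:
`M_*(Γ₀(N))` is a free module over `ℂ[E₄, E₆]` with a homogeneous basis `f i` of weights `κ i`
(`i : Fin (psi N)`); the matrix `Vmat κ f z = (cj (f i) j z)` of conjugates is invertible for every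
`z : ℍ`; `Δ • (Vmat)⁻¹` gives a dual basis consisting of cusp forms of weights `12 - κ i`.
-/

set_option autoImplicit false

open UpperHalfPlane ModularForm CongruenceSubgroup
open scoped MatrixGroups ModularForm Manifold
open Fermat.Agent.S23

namespace Fermat.Agent.S20

/-- The permutation of the coset indices induced by `γ : SL(2,ℤ)`:
`(cj f i) ∣[k] γ = cj f (perm N γ i)` (see `cj_slash'`). -/
noncomputable def perm (N : ℕ) [NeZero N] (γ : SL(2, ℤ)) : Equiv.Perm (Fin (psi N)) :=
  (quoEquiv N).trans ((MulAction.toPerm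
    (⟨Matrix.SpecialLinearGroup.mapGL ℝ γ, ⟨γ, rfl⟩⟩ : ↥𝒮ℒ)⁻¹).trans (quoEquiv N).symm)

/-- The matrix of conjugates of a family of modular forms: rows are indexed by the forms,
columns by the cosets. -/
noncomputable def Vmat {N : ℕ} [NeZero N] (κ : Fin (psi N) → ℕ)
    (f : ∀ i, ModularForm (Gam N) (κ i)) (z : ℍ) : Matrix (Fin (psi N)) (Fin (psi N)) ℂ :=
  Matrix.of fun i j => cj (f i) j z

/-- `f` is a homogeneous basis of `M_*(Γ₀(N))` as a module over the ring `M_*(SL(2,ℤ))` of
level-one forms. -/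
def IsFreeBasis {N : ℕ} [NeZero N] (κ : Fin (psi N) → ℕ)
    (f : ∀ i, ModularForm (Gam N) (κ i)) : Prop :=
  ∀ (K : ℤ) (F : ModularForm (Gam N) K),
    ∃! a : (∀ i, ModularForm 𝒮ℒ (K - (κ i : ℤ))), ∀ z : ℍ, F z = ∑ i, a i z * f i z

/-- The number of orbits of a permutation of `Fin n`. -/
noncomputable def numOrbits {n : ℕ} (σ : Equiv.Perm (Fin n)) : ℕ :=
  Nat.card (MulAction.orbitRel.Quotient (Subgroup.zpowers σ) (Fin n))

/-- The elliptic element of order 3 in `PSL(2,ℤ)`; it fixes `Fermat.Agent.S24.rho`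
(the point `ρ = e^{2πi/3}`, defined in `Fermat/Agent/S24/Ana/Defs.lean`). -/
def Umat : SL(2, ℤ) := ModularGroup.S * ModularGroup.T

/-- The discriminant as a function. -/
noncomputable abbrev Δf : ℍ → ℂ := fun z => ModularForm.discriminant z

end Fermat.Agent.S20
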