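import Fermat.Agent.S20.Defs
import Fermat.Agent.S20.JInj.Scale
import Fermat.Agent.S20.JInj.EisLattice
import Fermat.Agent.S20.JInj.LocalUniq
import Fermat.Agent.S20.JInj.LatticeEq
import Fermat.Agent.S20.JInj.Mobius

/-!
# S20 / chapter J: the `j`-invariant is injective on `SL(2,ℤ) \ ℍ`

`Jfun z = E₄ z ^ 3 / Δ z` is defined in `Fermat/Agent/S24/Ana/Defs.lean`.
-/

set_option autoImplicit false

open UpperHalfPlane ModularForm CongruenceSubgroup
open scoped MatrixGroups ModularForm Manifold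

namespace Fermat.Agent.S20

theorem j_inj (z w : ℍ) (h : Fermat.Agent.S24.Jfun z = Fermat.Agent.S24.Jfun w) :
    ∃ γ : SL(2, ℤ), γ • w = z := by
  obtain ⟨c, hc, h4, h6⟩ := JInjAux.exists_scale z w h
  obtain ⟨L₁, h11, h12⟩ := JInjAux.exists_periodPair 1 one_ne_zero z
  obtain ⟨L₂, h21, h22⟩ := JInjAux.exists_periodPair c hc w
  have e4 : L₁.G 4 = L₂.G 4 := by
    rw [JInjAux.G_eq L₁ 1 z h11 h12 (by norm_num), JInjAux.G_eq L₂ c w h21 h22 (by norm_num)]
    change _ * (_ * E₄ z) = _ * (_ * E₄ w)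
    rw [h4]; ring
  have e6 : L₁.G 6 = L₂.G 6 := by
    rw [JInjAux.G_eq L₁ 1 z h11 h12 (by norm_num), JInjAux.G_eq L₂ c w h21 h22 (by norm_num)]
    change _ * (_ * E₆ z) = _ * (_ * E₆ w)
    rw [h6]; ring
  exact JInjAux.exists_smul_of_lattice_eq L₁ L₂ z w c (by simpa using h11) h12 h21 h22
    (JInjAux.lattice_eq_of_eventually_eq L₁ L₂ (JInjAux.eventually_eq_of_G_eq L₁ L₂ e4 e6))

end Fermat.Agent.S20
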