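import Fermat.Agent.S20.Basics
import Fermat.Agent.S20.JInj
import Fermat.Agent.S24.Ana.JFacts
import Fermat.Agent.S20.Div.Small
import Fermat.Agent.S20.Div.Quot
import Fermat.Agent.S20.Div.Pack
import Fermat.Agent.S20.Div.Orders
import Fermat.Agent.S20.Div.Orbits

/-!
# S20 / chapter D: division lemmas

* values of `E₄`, `E₆` at the elliptic points;
* the regular-sequence lemma for `(E₄, E₆)`;
* division of a form of level `Γ₀(N)` all of whose conjugates vanish at a point `z₀` by the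
  level-one form of smallest weight vanishing at `z₀`;
* division by `Δ`.
-/

set_option autoImplicit false

open UpperHalfPlane ModularForm CongruenceSubgroup
open scoped MatrixGroups ModularForm Manifold
open Fermat.Agent.S23

namespace Fermat.Agent.S20

variable {N : ℕ} [NeZero N]

theorem E₆_I : E₆ UpperHalfPlane.I = 0 := DivAux.E₆_I

theorem E₄_rho : E₄ Fermat.Agent.S24.rho = 0 := DivAux.E₄_rho

/-- `E₄` and `E₆` have no common zero. -/
theorem E₄_ne_zero_or_E₆_ne_zero (z : ℍ) : E₄ z ≠ 0 ∨ E₆ z ≠ 0 :=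
  DivAux.E₄_ne_zero_or_E₆_ne_zero z

theorem denom_S_I : denom ModularGroup.S UpperHalfPlane.I = Complex.I := DivAux.denom_S_I

/-- `denom U ρ = ρ + 1 = e^{πi/3}`, a primitive 6th root of unity. -/
theorem denom_Umat_ellRho :
    denom Umat Fermat.Agent.S24.rho = (1 / 2 : ℂ) + (Real.sqrt 3 / 2 : ℝ) * Complex.I :=
  DivAux.denom_Umat_ellRho

/-- Regular sequence: if `E₆ f = E₄ g` then `E₄` divides `f`. -/
theorem reg_E₄_E₆ {K : ℤ} (f : ModularForm (Gam N) (K - 6)) (g : ModularForm (Gam N) (K - 4))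
    (h : ∀ z : ℍ, E₆ z * f z = E₄ z * g z) :
    ∃ u : ModularForm (Gam N) (K - 10), ∀ z : ℍ, f z = E₄ z * u z := by
  have hev : ∀ᶠ z in atImInfty, (fun z : ℍ => E₄ z) z ≠ 0 :=
    DivAux.eventually_ne_of_tendsto _ 1 one_ne_zero StabAux.tendsto_E₄
  obtain ⟨g₀, hg₀, hfg⟩ := DivAux.exists_quot_of_local (fun z : ℍ => E₄ z) (fun z : ℍ => f z)
    DivAux.mdiff_E₄ (ModularFormClass.holo f) hev.exists (by
      intro z₁ hz₁
      have h6 : E₆ z₁ ≠ 0 := (DivAux.E₄_ne_zero_or_E₆_ne_zero z₁).resolve_left (not_not.mpr hz₁)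
      have ha6 := DivAux.analyticAt_comp_ofComplex (fun z : ℍ => E₆ z) DivAux.mdiff_E₆ z₁
      have hag := DivAux.analyticAt_comp_ofComplex (fun z : ℍ => g z) (ModularFormClass.holo g) z₁
      have h6' : (fun x : ℂ => E₆ (ofComplex x)) (z₁ : ℂ) ≠ 0 := by
        simpa [ofComplex_apply] using h6
      refine ⟨fun x => g (ofComplex x) / E₆ (ofComplex x), hag.div ha6 h6', ?_⟩
      filter_upwards [ha6.continuousAt.eventually_ne h6'] with x hx
      have := h (ofComplex x)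
      field_simp
      linear_combination this)
  exact DivAux.pack (by ring) (fun z : ℍ => E₄ z) DivAux.mdiff_E₄ DivAux.E₄_smul hev f g₀ hg₀ hfg
    (fun j => DivAux.bdd_div_of_tendsto _ 1 one_ne_zero StabAux.tendsto_E₄ _
      (cj_isBoundedAtImInfty f j))

/-- Division by `E₆` of a form all of whose conjugates vanish at a zero `z₀` of `E₆`. -/
theorem div_E₆ {K : ℤ} (f : ModularForm (Gam N) K) (z₀ : ℍ) (h₀ : E₆ z₀ = 0)
    (hf : ∀ j, cj f j z₀ = 0) :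
    ∃ g : ModularForm (Gam N) (K - 6), ∀ z : ℍ, f z = E₆ z * g z := by
  have hev : ∀ᶠ z in atImInfty, (fun z : ℍ => E₆ z) z ≠ 0 :=
    DivAux.eventually_ne_of_tendsto _ 1 one_ne_zero DivAux.tendsto_E₆
  obtain ⟨g₀, hg₀, hfg⟩ := DivAux.exists_quot_of_simple (fun z : ℍ => E₆ z) (fun z : ℍ => f z)
    DivAux.mdiff_E₆ (ModularFormClass.holo f) DivAux.E₆_simple (by
      intro z₁ hz₁
      obtain ⟨γ, rfl⟩ := DivAux.E₆_zero_orbit z₀ z₁ h₀ hz₁
      exact DivAux.vanish_orbit f z₀ hf γ)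
  exact DivAux.pack rfl (fun z : ℍ => E₆ z) DivAux.mdiff_E₆ DivAux.E₆_smul hev f g₀ hg₀ hfg
    (fun j => DivAux.bdd_div_of_tendsto _ 1 one_ne_zero DivAux.tendsto_E₆ _
      (cj_isBoundedAtImInfty f j))

/-- Division by `E₄` of a form all of whose conjugates vanish at a zero `z₀` of `E₄`. -/
theorem div_E₄ {K : ℤ} (f : ModularForm (Gam N) K) (z₀ : ℍ) (h₀ : E₄ z₀ = 0)
    (hf : ∀ j, cj f j z₀ = 0) :
    ∃ g : ModularForm (Gam N) (K - 4), ∀ z : ℍ, f z = E₄ z * g z := by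
  have hev : ∀ᶠ z in atImInfty, (fun z : ℍ => E₄ z) z ≠ 0 :=
    DivAux.eventually_ne_of_tendsto _ 1 one_ne_zero StabAux.tendsto_E₄
  obtain ⟨g₀, hg₀, hfg⟩ := DivAux.exists_quot_of_simple (fun z : ℍ => E₄ z) (fun z : ℍ => f z)
    DivAux.mdiff_E₄ (ModularFormClass.holo f) DivAux.E₄_simple (by
      intro z₁ hz₁
      obtain ⟨γ, rfl⟩ := DivAux.E₄_zero_orbit z₀ z₁ h₀ hz₁
      exact DivAux.vanish_orbit f z₀ hf γ)
  exact DivAux.pack rfl (fun z : ℍ => E₄ z) DivAux.mdiff_E₄ DivAux.E₄_smul hev f g₀ hg₀ hfg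
    (fun j => DivAux.bdd_div_of_tendsto _ 1 one_ne_zero StabAux.tendsto_E₄ _
      (cj_isBoundedAtImInfty f j))

/-- Division by the weight-12 form vanishing at a generic point `z₀`. -/
theorem div_gen {K : ℤ} (f : ModularForm (Gam N) K) (z₀ : ℍ) (h4 : E₄ z₀ ≠ 0) (h6 : E₆ z₀ ≠ 0)
    (hf : ∀ j, cj f j z₀ = 0) :
    ∃ g : ModularForm (Gam N) (K - 12),
      ∀ z : ℍ, f z = (E₄ z ^ 3 * E₆ z₀ ^ 2 - E₄ z₀ ^ 3 * E₆ z ^ 2) * g z := by
  have hev : ∀ᶠ z in atImInfty,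
      (fun z : ℍ => E₄ z ^ 3 * E₆ z₀ ^ 2 - E₄ z₀ ^ 3 * E₆ z ^ 2) z ≠ 0 :=
    DivAux.eventually_ne_of_tendsto _ _ (DivAux.gen_limit_ne_zero z₀) (DivAux.gen_tendsto z₀)
  obtain ⟨g₀, hg₀, hfg⟩ := DivAux.exists_quot_of_simple
    (fun z : ℍ => E₄ z ^ 3 * E₆ z₀ ^ 2 - E₄ z₀ ^ 3 * E₆ z ^ 2) (fun z : ℍ => f z)
    (DivAux.mdiff_gen z₀) (ModularFormClass.holo f)
    (fun z₁ hz₁ => DivAux.gen_simple z₀ z₁ h4 h6 hz₁) (by
      intro z₁ hz₁
      obtain ⟨γ, rfl⟩ := DivAux.gen_zero_orbit z₀ z₁ h4 h6 hz₁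
      exact DivAux.vanish_orbit f z₀ hf γ)
  exact DivAux.pack rfl (fun z : ℍ => E₄ z ^ 3 * E₆ z₀ ^ 2 - E₄ z₀ ^ 3 * E₆ z ^ 2)
    (DivAux.mdiff_gen z₀) (DivAux.gen_smul z₀) hev f g₀ hg₀ hfg
    (fun j => DivAux.bdd_div_of_tendsto _ _ (DivAux.gen_limit_ne_zero z₀) (DivAux.gen_tendsto z₀) _
      (cj_isBoundedAtImInfty f j))

/-- Division by `Δ` of a form all of whose conjugates are `O(Δ)` at `i∞`. -/
theorem div_Δ {K : ℤ} (f : ModularForm (Gam N) K)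
    (hf : ∀ j, IsBoundedAtImInfty (fun z : ℍ => cj f j z / Δf z)) :
    ∃ g : ModularForm (Gam N) (K - 12), ∀ z : ℍ, f z = Δf z * g z := by
  obtain ⟨g₀, hg₀, hfg⟩ := DivAux.exists_quot_of_ne_zero Δf (fun z : ℍ => f z)
    DivAux.mdiff_Δ (ModularFormClass.holo f) DivAux.Δ_ne_zero
  exact DivAux.pack rfl Δf DivAux.mdiff_Δ DivAux.Δ_smul
    (Filter.Eventually.of_forall DivAux.Δ_ne_zero) f g₀ hg₀ hfg hf

end Fermat.Agent.S20
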