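import Fermat.Agent.S20.Local
import Fermat.Agent.S20.Cusp
import Fermat.Agent.S23.Trans

/-!
# S20 / chapter E1: the dual basis of cusp forms
-/

set_option autoImplicit false

open UpperHalfPlane ModularForm CongruenceSubgroup
open scoped MatrixGroups ModularForm Manifold
open Fermat.Agent.S23

namespace Fermat.Agent.S20

variable {N : ℕ} [NeZero N]

namespace DualAux

/-- Transformation law of the inverse of the matrix of conjugates: the columns of `V⁻¹`
are permuted and rescaled. -/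
theorem Vmat_inv_smul (κ : Fin (psi N) → ℕ) (f : ∀ i, ModularForm (Gam N) (κ i))
    (γ : SL(2, ℤ)) (z : ℍ) (hz : (Vmat κ f z).det ≠ 0) (i j : Fin (psi N)) :
    (Vmat κ f (γ • z))⁻¹ j i =
      (Vmat κ f z)⁻¹ (perm N γ j) i * (denom γ z ^ (κ i : ℤ))⁻¹ := by
  have hd : ∀ i : Fin (psi N), denom γ z ^ (κ i : ℤ) ≠ 0 := fun i =>
    zpow_ne_zero _ (denom_ne_zero γ z)
  have hinv : Vmat κ f (γ • z) *
      (Matrix.of fun j i => (Vmat κ f z)⁻¹ (perm N γ j) i * (denom γ z ^ (κ i : ℤ))⁻¹) = 1 := by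
    ext a b
    rw [Matrix.mul_apply]
    have h1 : ∀ j, Vmat κ f (γ • z) a j *
        (Matrix.of fun j i => (Vmat κ f z)⁻¹ (perm N γ j) i * (denom γ z ^ (κ i : ℤ))⁻¹) j b =
        denom γ z ^ (κ a : ℤ) * (denom γ z ^ (κ b : ℤ))⁻¹ *
          (Vmat κ f z a (perm N γ j) * (Vmat κ f z)⁻¹ (perm N γ j) b) := by
      intro j
      rw [Vmat_smul, Matrix.of_apply]
      ring
    simp_rw [h1]
    rw [← Finset.mul_sum,
      Equiv.sum_comp (perm N γ) (fun j => Vmat κ f z a j * (Vmat κ f z)⁻¹ j b),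
      ← Matrix.mul_apply, Matrix.mul_nonsing_inv _ (isUnit_iff_ne_zero.mpr hz)]
    by_cases hab : a = b
    · subst hab
      rw [mul_inv_cancel₀ (hd a), one_mul]
    · rw [Matrix.one_apply_ne hab, mul_zero]
  rw [Matrix.inv_eq_right_inv hinv, Matrix.of_apply]

/-- The entries of the inverse of the matrix of conjugates are holomorphic. -/
theorem mdiff_inv_entry (κ : Fin (psi N) → ℕ) (f : ∀ i, ModularForm (Gam N) (κ i))
    (hdet : ∀ z : ℍ, (Vmat κ f z).det ≠ 0) (i j : Fin (psi N)) :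
    MDiff (fun z : ℍ => (Vmat κ f z)⁻¹ j i) := by
  have hV : ∀ a b : Fin (psi N), MDiff (fun z : ℍ => Vmat κ f z a b) := fun a b =>
    cj_mdiff (f a) b
  have h : (fun z : ℍ => (Vmat κ f z)⁻¹ j i) =
      (fun z : ℍ => (Vmat κ f z).det)⁻¹ * (fun z : ℍ => Matrix.adjugate (Vmat κ f z) j i) := by
    funext z
    rw [Matrix.inv_def, Ring.inverse_eq_inv']
    simp
  rw [h]
  exact (MDifferentiable.inv (TransAux.mdiff_det _ hV) hdet).mul
    (TransAux.mdiff_adjugate _ hV j i)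

/-- Transformation law of the discriminant. -/
theorem Δf_smul (γ : SL(2, ℤ)) (z : ℍ) : Δf (γ • z) = denom γ z ^ (12 : ℤ) * Δf z :=
  SlashInvariantForm.slash_action_eqn'' (Γ := 𝒮ℒ) CuspForm.discriminant
    (γ := Matrix.SpecialLinearGroup.mapGL ℝ γ) ⟨γ, rfl⟩ z

/-- The function underlying the `i`-th dual form. -/
noncomputable def dualFun (κ : Fin (psi N) → ℕ) (f : ∀ i, ModularForm (Gam N) (κ i))
    (i : Fin (psi N)) : ℍ → ℂ :=
  fun z => Δf z * (Vmat κ f z)⁻¹ (i0 N) i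

theorem dualFun_smul (κ : Fin (psi N) → ℕ) (f : ∀ i, ModularForm (Gam N) (κ i))
    (hdet : ∀ z : ℍ, (Vmat κ f z).det ≠ 0) (i : Fin (psi N)) (γ : SL(2, ℤ)) (z : ℍ) :
    dualFun κ f i (γ • z) =
      denom γ z ^ (12 - (κ i : ℤ)) * (Δf z * (Vmat κ f z)⁻¹ (perm N γ (i0 N)) i) := by
  unfold dualFun
  rw [Δf_smul, Vmat_inv_smul κ f γ z (hdet z), zpow_sub₀ (denom_ne_zero γ z)]
  ring

theorem dualFun_slash (κ : Fin (psi N) → ℕ) (f : ∀ i, ModularForm (Gam N) (κ i))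
    (hdet : ∀ z : ℍ, (Vmat κ f z).det ≠ 0) (i : Fin (psi N)) (γ : SL(2, ℤ)) :
    (dualFun κ f i) ∣[12 - (κ i : ℤ)] γ =
      fun z => Δf z * (Vmat κ f z)⁻¹ (perm N γ (i0 N)) i := by
  funext z
  rw [ModularForm.SL_slash_apply, dualFun_smul κ f hdet, zpow_neg]
  have h := zpow_ne_zero (12 - (κ i : ℤ)) (denom_ne_zero γ z)
  field_simp

end DualAux

open DualAux in
/-- The dual basis: cusp forms `g i` of weight `12 - κ i` whose conjugates are the entries of
`Δ • V⁻¹`. -/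
theorem exists_dual (κ : Fin (psi N) → ℕ) (f : ∀ i, ModularForm (Gam N) (κ i))
    (hfree : IsFreeBasis κ f) :
    ∃ g : ∀ i, CuspForm (Gam N) (12 - (κ i : ℤ)),
      ∀ (i j : Fin (psi N)) (z : ℍ), cj (g i) j z = Δf z * (Vmat κ f z)⁻¹ j i := by
  have hdet : ∀ z : ℍ, (Vmat κ f z).det ≠ 0 := det_Vmat_ne_zero κ f hfree
  have hex : ∀ i : Fin (psi N), ∃ g : CuspForm (Gam N) (12 - (κ i : ℤ)),
      (g : ℍ → ℂ) = dualFun κ f i := by
    intro i
    refine exists_cuspForm_of (12 - (κ i : ℤ)) (dualFun κ f i) ?_ ?_ ?_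
    · exact (CuspFormClass.holo CuspForm.discriminant).mul
        (mdiff_inv_entry κ f hdet i (i0 N))
    · intro γ hγ z
      rw [dualFun_smul κ f hdet, (perm_i0_iff γ).mpr hγ]
      rfl
    · intro γ
      rw [dualFun_slash κ f hdet]
      exact isZeroAtImInfty_Delta_mul_inv κ f hfree i (perm N γ (i0 N))
  choose g hg using hex
  refine ⟨g, fun i j z => ?_⟩
  obtain ⟨γ, rfl⟩ := exists_perm_i0 (N := N) j
  rw [cj_eq_slash (g i) γ, hg i, dualFun_slash κ f hdet]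

end Fermat.Agent.S20
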