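import Fermat.Agent.S20.Div
import Fermat.Agent.S20.Free.Indep
import Fermat.Agent.S20.Free.CardLe
import Fermat.Agent.S20.Free.CardGe
import Fermat.Agent.S20.Free.Max
import Fermat.Agent.S20.Free.Gen

/-!
# S20 / chapter F: `M_*(Γ₀(N))` is a free module of rank `psi N` over `M_*(SL(2,ℤ))`
-/

set_option autoImplicit false

open UpperHalfPlane ModularForm CongruenceSubgroup
open scoped MatrixGroups ModularForm Manifold
open Fermat.Agent.S23

namespace Fermat.Agent.S20

open FreeAux in
theorem exists_free_basis (N : ℕ) [NeZero N] :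
    ∃ (κ : Fin (psi N) → ℕ) (f : ∀ i, ModularForm (Gam N) (κ i)), IsFreeBasis κ f := by
  obtain ⟨r, κ, g, hmin, hspan⟩ := exists_isMin_spansMod N (psi N)
    (fun r κ g h => by simpa using indep_card_le κ g (isMin_indep κ g h))
  have hind : Indep κ g := isMin_indep κ g hmin
  have hgen : Gen κ g := spansMod_gen κ g hspan
  have h1 : r ≤ psi N := by simpa using indep_card_le κ g hind
  have h2 : psi N ≤ r := by simpa using gen_card_ge κ g hgen
  obtain rfl : r = psi N := le_antisymm h1 h2
  refine ⟨κ, g, ?_⟩
  intro K F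
  obtain ⟨a, ha⟩ := hgen K F
  refine ⟨a, ha, ?_⟩
  intro a' ha'
  funext i
  have h0 := hind K (fun i => a' i - a i) (fun z => by
    have e1 : ∀ i, (a' i - a i) z * g i z = a' i z * g i z - a i z * g i z := fun i => by
      rw [sub_apply, sub_mul]
    simp only [e1, Finset.sum_sub_distrib]
    rw [← ha z, ← ha' z, sub_self])
  exact sub_eq_zero.mp (h0 i)

end Fermat.Agent.S20
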