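import Fermat.Agent.S20.Div
import Fermat.Agent.S20.Local.Points
import Fermat.Agent.S20.Local.Transport
import Fermat.Agent.S20.Local.Count6

/-!
# S20 / chapter L: the matrix of conjugates of a free basis is invertible at every point of `ℍ`;
eigenvalue counting at the elliptic points `i` and `ρ`.
-/

set_option autoImplicit false

open UpperHalfPlane ModularForm CongruenceSubgroup
open scoped MatrixGroups ModularForm Manifold
open Fermat.Agent.S23

namespace Fermat.Agent.S20

variable {N : ℕ} [NeZero N]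

theorem det_Vmat_ne_zero (κ : Fin (psi N) → ℕ) (f : ∀ i, ModularForm (Gam N) (κ i))
    (hfree : IsFreeBasis κ f) (z : ℍ) : (Vmat κ f z).det ≠ 0 := by
  by_cases h6 : E₆ z = 0
  · obtain ⟨γ, rfl⟩ := LocalAux.exists_smul_I_of_E₆_eq_zero z h6
    exact LocalAux.det_Vmat_smul_ne_zero κ f γ _ (LocalAux.det_Vmat_I_ne_zero κ f hfree)
  by_cases h4 : E₄ z = 0
  · obtain ⟨γ, rfl⟩ := LocalAux.exists_smul_rho_of_E₄_eq_zero z h4
    exact LocalAux.det_Vmat_smul_ne_zero κ f γ _ (LocalAux.det_Vmat_rho_ne_zero κ f hfree)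
  exact LocalAux.det_Vmat_generic_ne_zero κ f hfree z h4 h6

theorem count_mod_four (κ : Fin (psi N) → ℕ) (f : ∀ i, ModularForm (Gam N) (κ i))
    (hfree : IsFreeBasis κ f) :
    2 * (Finset.univ.filter fun i => κ i % 4 = 0).card =
      psi N + (Finset.univ.filter fun j => perm N ModularGroup.S j = j).card :=
  LocalAux.count_mod_four_of_det κ f (det_Vmat_ne_zero κ f hfree _)

theorem count_mod_six (κ : Fin (psi N) → ℕ) (f : ∀ i, ModularForm (Gam N) (κ i))
    (hfree : IsFreeBasis κ f) :
    3 * (Finset.univ.filter fun i => κ i % 6 = 0).card =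
        psi N + 2 * (Finset.univ.filter fun j => perm N Umat j = j).card ∧
      (Finset.univ.filter fun i => κ i % 6 = 2).card =
        (Finset.univ.filter fun i => κ i % 6 = 4).card :=
  LocalAux.count_mod_six_of_det κ f (det_Vmat_ne_zero κ f hfree _)

end Fermat.Agent.S20
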