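/-!
# S20 chapter plans (comment-only file; instructions for the chapter owners)

Each chapter owner reads ONLY the section of their chapter.
-/

/-
=== CHAPTER BASICS ===
BASICS — file Fermat/Agent/S20/Basics.lean (about 25 small lemmas; everybody else uses them as black boxes, so LAND EARLY AND OFTEN; you may split the file's lemmas among 2–3 workers via sub-files Basics/*.lean, but keep all interface statements in Basics.lean). Hints:
- `cj_slash'`: exactly the proof of `cj_slash` in Fermat/Agent/S23/Conj.lean (`SlashInvariantForm.quotientFunc_smul (ℋ := 𝒮ℒ) f hh (quoEquiv N i)` then `simp [perm]`), now for any `SlashInvariantFormClass`. `cj_smul_apply`: from it and `ModularForm.SL_slash_apply` (`denom_ne_zero`, `zpow_neg`).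
- `perm` is conjugation by `quoEquiv N` of the action of `(mapGL γ)⁻¹` on the left cosets `Quo N = 𝒮ℒ ⧸ (Gam N).subgroupOf 𝒮ℒ`. `perm_one`, `perm_mul` ((h₁h₂)⁻¹ • q = h₂⁻¹ • h₁⁻¹ • q; if Lean says the true identity is the other order, tell helper21 IMMEDIATELY), `perm_neg` (−1 ∈ Γ₀(N), and mapGL (−γ) = mapGL γ * mapGL (−1), (−1) central), `perm_i0_iff` (h⁻¹ • ⟦1⟧ = ⟦1⟧ ⟺ h ∈ Gam N ⟺ γ ∈ Gamma0 N, `QuotientGroup.eq`, `Subgroup.mem_subgroupOf`, `Subgroup.mem_map`, injectivity of mapGL), `exists_perm_i0` (every coset is ⟦mapGL γ'⟧; take γ = γ'⁻¹), `cj_eq_slash` (`cj_slash'` at `i0 N` + S23 `cj_i0`), `Vmat_smul` (`cj_smul_apply`, `Matrix.of_apply`).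
- `exists_modularForm_of`, `exists_cuspForm_of`, `exists_levelOne_of`: build the structure: `slash_action_eq'` (elements of `Gam N` are `mapGL γ`, γ ∈ Gamma0 N; function-level slash from the pointwise law via `ModularForm.SL_slash_apply`), `holo'`, cusp condition as in Mathlib's `CuspForm.discriminant` (Discriminant.lean): `rw [Subgroup.IsArithmetic.isCusp_iff_isCusp_SL2Z] at hc; rw [OnePoint.isBoundedAt_iff_forall_SL2Z hc]; intro γ _` (resp. `isZeroAt_iff_forall_SL2Z`). See also how Fermat/Agent/S23/Esymm.lean and Division.lean build forms.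
- `exists_mulL1`: via `exists_modularForm_of` with F = a * f ((a*f)∣[e+k]γ = (a∣[e]γ)(f∣[k]γ): `ModularForm.mul_slash_SL2`; a∣γ = a; f∣γ bounded: `ModularFormClass.bdd_at_infty_slash`; product of bounded is bounded). `cj_of_eq_mul`: unfold `cj`, induct on the quotient element as in S23 Conj.lean `cj_mul` (h⁻¹ = mapGL γ⁻¹, `mul_slash_SL2`, a is 𝒮ℒ-invariant). `cj_congr'`, `cj_add`, `cj_smul`, `cj_of_eq_sum`: slash is linear in the function (`SlashAction.add_slash`, `ModularForm.SL_smul_slash`), cj depends only on the function (S23 `cj_congr`).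
- `psi_eq_index`: `psi N = Nat.card (𝒮ℒ ⧸ (Gam N).subgroupOf 𝒮ℒ) = (Gam N).relIndex 𝒮ℒ`; transport along the isomorphism SL(2,ℤ) ≃* 𝒮ℒ (`MonoidHom.ofInjective`, `Matrix.SpecialLinearGroup.mapGL_injective`); look for relIndex/index lemmas about `Subgroup.map` of injective homs (`Subgroup.relIndex_map_map_of_injective`, `Subgroup.index_map_of_injective`, Mathlib/NumberTheory/ModularForms/ArithmeticSubgroups.lean).
- `finiteDimensional_modularForm`, `finrank_modularForm_le`: the ℂ-linear map F ↦ (n ↦ coeff n (qExpansion 1 F)) into `Fin (B+1) → ℂ`, B = (K * psi N).toNat / 12, is injective by Prelude `ModularForm.sturm_bound_Gamma0` (after `psi_eq_index`); linearity of the q-expansion as in Fermat/Agent/S23/RatSpan.lean (`RatSpanAux.tau`, there for cusp forms) / Nice.lean (`qExp`, `isNice_modularForm`).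
- `modularForm_neg_weight`: `ModularForm.norm 𝒮ℒ F` (NormTrace.lean) is a level-one form of negative weight, hence 0 (`ModularFormClass.levelOne_neg_weight_eq_zero`), hence F = 0 (`ModularForm.norm_eq_zero_iff` or similar; check what NormTrace.lean offers — maybe it already has the negative-weight statement). `modularForm_odd_weight`: γ = −1 ∈ Γ₀(N) acts trivially on ℍ with denom = −1, so F = (−1)^K F. `modularForm_weight_zero`: `ModularForm.eq_const_of_weight_zero`.
- `exists_trace_mul`: view s as a modular form (`CuspForm` → `ModularForm`: same function), take `ModularForm.trace 𝒮ℒ (sM.mul f)`; S23 `trace_apply`, `cj_mul` give the pointwise formula Σ_j cj s j * cj f j; each `cj s j` tends to 0 at i∞ (S23 `cj_isZeroAtImInfty`) and `cj f j` is bounded, so the trace is a level-one form vanishing at i∞, hence a cusp form (`ModularForm.toCuspForm`/`IsCuspForm`, CuspFormSubmodule.lean), hence Δ times b := `CuspForm.discriminantEquiv` of it (`discriminant_mul_discriminantEquiv_apply`).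 Mind the weight `k₁ + k₂ - 12`.

=== END OF CHAPTER BASICS ===
-/

/-
=== CHAPTER JINJ ===
J — file Fermat/Agent/S20/JInj.lean: prove
 theorem j_inj (z w : ℍ) (h : Fermat.Agent.S24.Jfun z = Fermat.Agent.S24.Jfun w) : ∃ γ : SL(2, ℤ), γ • w = z
where `Jfun z = E₄ z ^ 3 / discriminant z` (Fermat/Agent/S24/Ana/Defs.lean). Self-contained level-one analysis via the Weierstrass ℘-function: /opt/mathlib4/Mathlib/Analysis/SpecialFunctions/Elliptic/Weierstrass.lean (READ IT FIRST: `PeriodPair` L with `L.lattice`, `℘[L]`, `℘'[L]`, `L.G n = ∑' l : L.lattice, (l^n)⁻¹`, `L.g₂ = 60 G 4`, `L.g₃ = 140 G 6`, power-series expansions `weierstrassPExceptSeries`, `coeff_weierstrassPExceptSeries`, `hasFPowerSeriesAt_weierstrassPExcept`, `derivWeierstrassP_sq` (the ODE ℘'² = 4℘³ − g₂℘ − g₃), `not_continuousAt_weierstrassP`, `analyticOnNhd_weierstrassP`).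
PROOF.
(1) Algebra: from Jfun z = Jfun w and 1728Δ = E₄³ − E₆², Δ ≠ 0: E₄(z)³E₆(w)² = E₄(w)³E₆(z)², and there is λ ∈ ℂ, λ ≠ 0 with E₄(z) = λ⁴E₄(w), E₆(z) = λ⁶E₆(w). [Cases: E₄(w) = 0 (then E₆(w) ≠ 0, E₄(z) = 0, E₆(z) ≠ 0; take λ with λ⁶ = E₆(z)/E₆(w)); E₆(w) = 0 (similarly, λ⁴ = E₄(z)/E₄(w)); both ≠ 0: A := E₄(z)/E₄(w), B := E₆(z)/E₆(w) satisfy A³ = B², put μ := B/A (μ² = A, μ³ = B) and take λ with λ² = μ. Complex roots exist (`Complex.exp`/`Complex.cpow`, or IsAlgClosed.exists_pow_nat_eq).]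
(2) Lattices: for τ ∈ ℍ let L_τ be the period pair (1, τ) (or (τ,1); check the orientation convention of `PeriodPair`), lattice ℤ + ℤτ. Then `L_τ.G 4 = 2ζ(4)·E₄ τ` and `L_τ.G 6 = 2ζ(6)·E₆ τ` with nonzero constants: Mathlib's `ModularForm.E k` is the normalised Eisenstein series (sum over coprime pairs / 2); find in EisensteinSeries/ the lemma relating the sum over all (m,n) ≠ 0 of (mτ+n)^(-k) to ζ(k) times the coprime sum (it is used for the q-expansion; grep `riemannZeta` in Mathlib/NumberTheory/ModularForms/EisensteinSeries/). Reindex `L.lattice ≃ ℤ × ℤ` (`latticeEquivProd`). Scaling: for c ≠ 0 the period pair cL has `G n = c^(-n) · L.G n`.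
 Hence with L₁ := L_z and L₂ := λ^{-1}·L_w (or λ·L_w; fix the exponent sign by the computation): L₁.G 4 = L₂.G 4 and L₁.G 6 = L₂.G 6.
(3) KEY LEMMA: if two period pairs satisfy G 4 and G 6 equal then `L₁.lattice = L₂.lattice` (as sets/submodules of ℂ). Proof: all `G (2n)` agree, by strong induction from the recursion (n ≥ 4): (2n+1)(n−3)(2n−1)·G_{2n} = 3·Σ_{k=2}^{n−2} (2k−1)(2n−2k−1) G_{2k} G_{2n−2k}. Derivation: f(x) := ℘(x) − x^(-2) is analytic near 0 with Taylor series Σ_{m≥1} (2m+1)G_{2m+2} x^(2m) (from `coeff_weierstrassPExceptSeries` with l₀ = 0, or directly), and the ODE gives (differentiate ℘'² = 4℘³ − g₂℘ − g₃ and divide by 2℘' ≢ 0, or equivalently compare coefficients in the ODE itself) x²f'' = 12f + 6x²f² − g₂x²/2; comparing coefficients of x^(2m) for m ≥ 3 gives c_m(2m+3)(m−2)·2 = 6·Σ_{a+b=m−1, a,b ≥ 1} c_a c_b with c_m = (2m+1)G_{2m+2}. You are free to organise this differently: e.g. prove directly that the Taylor coefficients a_n of any function f analytic at 0 with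 f(0) = 0 satisfying the ODE near 0 are determined by a_2 and a_4 (a_n(n−4)(n+3) = 6Σ_{i+j=n−2} a_i a_j for n ≠ 2), so the two functions f₁, f₂ have the same Taylor series, hence ℘[L₁] = ℘[L₂] near 0. (odd `G n` vanish: `G_eq_zero_of_odd`.) Then: ℘[L₁] − ℘[L₂] is analytic on the connected open set ℂ \ (L₁ ∪ L₂) (complement of a closed discrete/countable set is connected: e.g. `IsConnected` of the complement of a countable set in ℂ, `Set.Countable.isConnected_compl_of_one_lt_rank` or similar) and vanishes near 0 (punctured), so everywhere there (identity theorem `AnalyticOnNhd.eqOn_zero_of_preconnected_of_eventuallyEq_zero` or the `frequently` version); if l ∈ L₁ \ L₂ then ℘[L₂] is continuous at l while ℘[L₁] is not (`not_continuousAt_weierstrassP`) although they agree on a punctured neighbourhood of l minus lattice points — contradiction (ContinuousAt transfers along eventual equality in the punctured neighbourhood plus the fact that ℘[L₁] has a pole: use `order_weierstrassP`/meromorphic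 order, or boundedness near l). By symmetry L₁ = L₂.
(4) From ℤ + ℤz = λ'(ℤ + ℤw) (λ' ≠ 0): z = λ'(a w + b), 1 = λ'(c w + d) with integers a, b, c, d, and conversely λ', λ'w are integral combinations of 1, z, so the integer matrix (a b; c d) is invertible over ℤ, det = ±1; z = (aw + b)/(cw + d) and Im z = det·Im w/|cw+d|² > 0 force det = 1 (`UpperHalfPlane` Möbius formulas: `UpperHalfPlane.coe_smul`/`specialLinearGroup_apply`, `im_smul_eq_div_normSq`). So γ := (a b; c d) ∈ SL(2,ℤ) satisfies γ • w = z.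
Suggested split (4–6 workers): (1) algebra; (2a) Eisenstein ↔ lattice sums; (2b) scaling of period pairs; (3a) Taylor/ODE uniqueness; (3b) identity-theorem + pole argument ⇒ equal lattices; (4) lattice ⇒ SL(2,ℤ).

=== END OF CHAPTER JINJ ===
-/

/-
=== CHAPTER DIV ===
DIV — file Fermat/Agent/S20/Div.lean (read the statements there). Black boxes: Basics.lean (esp. `exists_modularForm_of`, `cj_eq_slash`, `exists_perm_i0`, `cj_smul_apply`), `j_inj` (JInj.lean), and from Fermat/Agent/S24/Ana/JFacts.lean (another team, statements frozen): `Jfun_order` (analyticOrderAt of `w ↦ Jfun (ofComplex w) - Jfun z₀` at z₀ is 3 / 2 / 1 according to Jfun z₀ = 0 / = 1728 / else), `S_smul_I`, `ST_smul_rho`, `Jfun_I`, `Jfun_rho`, `Jfun_smul`, `Jfun_mdiff`.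
(a) Small facts. `E₆_I`: E₆(S•I) = denom(S,I)^6·E₆(I), S•I = I, denom = i, i^6 = −1 (or from `Jfun_I` and 1728Δ = E₄³ − E₆²). `E₄_rho`: same with Umat = S*T, denom(Umat, ρ) = ρ + 1 = e^{πi/3}, (ρ+1)^4 ≠ 1 (or from `Jfun_rho`). `E₄_ne_zero_or_E₆_ne_zero`: Δ ≠ 0. `denom_S_I`, `denom_Umat_rho`: compute (`UpperHalfPlane.denom`, entries of `ModularGroup.S`, `ModularGroup.T`; `Fermat.Agent.S24.rho` has coordinate −1/2 + (√3/2)i).
(b) `reg_E₄_E₆`: given E₆·f = E₄·g pointwise (f weight K−6, g weight K−4), define u z := if E₄ z ≠ 0 then f z / E₄ z else g z / E₆ z. Holomorphic: on the open set {E₄ ≠ 0} it is f/E₄; near a zero of E₄ we have E₆ ≠ 0 on a neighbourhood and there u = g/E₆ (both formulas agree where both denominators are nonzero). Transformation law under Γ₀(N) pointwise from those of f, g, E₄, E₆ (`SlashInvariantForm.slash_action_eqn''`; weights (K−6) − 4 = K − 10). All SL(2,ℤ)-translates bounded at i∞: for γ : SL(2,ℤ), (u∣[K−10]γ)(z) = (f∣[K−6]γ)(z)/E₄(z) whenever E₄ z ≠ 0,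 E₄ → 1 at i∞ (Fermat/Agent/S23/Stab.lean has `tendsto_E₄`; E₄ is a level-one form with constant term 1), f∣γ bounded (`ModularFormClass.bdd_at_infty_slash`). Conclude with `exists_modularForm_of`.
(c) CORE division lemma (state and prove in a sub-file): let P be a level-one form of weight w with P(z) → c ≠ 0 at i∞ (so |P| ≥ |c|/2 for Im z large), all of whose zeros in ℍ are simple (analyticOrderAt (P ∘ ofComplex) z₁ = 1 at each zero z₁), and let f ∈ M_K(Γ₀(N)) vanish at every zero of P. Then ∃ g : ModularForm (Gam N) (K − w), ∀ z, f z = P z * g z. Proof: g := f/P off the zeros, extended holomorphically: at a zero z₁, order of f∘ofComplex ≥ 1 = order of P∘ofComplex, so the quotient has a removable singularity (Mathlib `analyticOrderAt` API: `AnalyticAt.analyticOrderAt_eq_natCast`-type factorisations f = (x − z₁)·f₁, P = (x − z₁)·P₁ with P₁(z₁) ≠ 0; or `dslope`; or the meromorphic-function API; or Riemann's removable singularity theorem `Complex.differentiableOn_update_limUnder_of_isLittleO`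 — see how Fermat/Agent/S23/Division.lean (`exists_quotient`) constructs a quotient function on ℍ). Then Γ₀(N)-law on the dense open set {P ≠ 0} and by continuity everywhere (or directly from f = P·g and cancellation where P ≠ 0 + identity theorem), boundedness at i∞ of all translates: (g∣γ) = (f∣γ)/P where P ≠ 0 (P is SL(2,ℤ)-invariant of weight w), and P is bounded away from 0 near i∞. `exists_modularForm_of`.
(d) `div_E₆` (P = E₆, z₀ a zero): zeros of E₆ are exactly SL(2,ℤ)•z₀: if E₆ z₁ = 0 then Jfun z₁ = 1728 = Jfun z₀ (Jfun = E₄³/Δ, 1728Δ = E₄³ at zeros of E₆), so z₁ = γ•z₀ by `j_inj`. f vanishes on the orbit: for γ : SL(2,ℤ), with j := perm N γ (i0 N): (f∣[K]γ) z₀ = cj f j z₀ = 0 (`cj_eq_slash`), hence f(γ•z₀) = 0 (`SL_slash_apply`, denom ≠ 0). Simple zeros: Jfun − 1728 = E₆²/Δ has order 2 at a point where Jfun = 1728 (`Jfun_order`; note 1728 ≠ 0), and order(E₆²/Δ) = 2·order(E₆) (Δ ≠ 0, analytic), so order(E₆) = 1 at each of its zeros. E₆ → 1 at i∞.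
 `div_E₄` (P = E₄): zeros = SL(2,ℤ)•z₀ (Jfun = 0), Jfun = E₄³/Δ has order 3 ⇒ order(E₄) = 1.
 `div_gen` (P = E₄³·E₆(z₀)² − E₄(z₀)³·E₆², weight 12, as a level-one form: build it with Basics `exists_levelOne_of` or from products/`ModularForm.mul`/`mcast`; only its function matters): identity P = 1728·Δ·Δ(z₀)·(Jfun z₀ − Jfun) (use E₆² = E₄³ − 1728Δ); so zeros of P = {Jfun = Jfun z₀} = SL(2,ℤ)•z₀ (`j_inj`), Jfun z₀ ∉ {0, 1728} (as E₄ z₀ ≠ 0, E₆ z₀ ≠ 0), order of Jfun − Jfun z₀ at every zero z₁ is 1 (`Jfun_order` at z₁, Jfun z₁ = Jfun z₀), hence order(P) = 1. Limit of P at i∞: E₆(z₀)² − E₄(z₀)³ = −1728Δ(z₀) ≠ 0.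
(e) `div_Δ`: g := f/Δ via `exists_modularForm_of`: holomorphic (Δ ≠ 0), Γ₀(N)-law (Δ has weight 12: `CuspForm.discriminant` is 𝒮ℒ-invariant), and for γ : SL(2,ℤ): (g∣[K−12]γ) = (f∣[K]γ)/Δ = (cj f (perm N γ (i0 N)))/Δ, bounded at i∞ by hypothesis.
Suggested split: (a)+(b) one worker, (c) one or two workers (analytic core: removable singularity; modular-form packaging), (d) one worker (using (c) as black box), (e) one worker.

=== END OF CHAPTER DIV ===
-/

/-
=== CHAPTER FREE ===
FREE — file Fermat/Agent/S20/Free.lean: prove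
 theorem exists_free_basis (N : ℕ) [NeZero N] : ∃ (κ : Fin (psi N) → ℕ) (f : ∀ i, ModularForm (Gam N) (κ i)), IsFreeBasis κ f
Black boxes: Basics.lean (`exists_mulL1`, `cj_of_eq_mul`, `finiteDimensional_modularForm`, `finrank_modularForm_le : finrank M_K ≤ (K * psi N).toNat / 12 + 1`, `modularForm_neg_weight`, `modularForm_odd_weight`), Div.lean `reg_E₄_E₆` (if E₆·f = E₄·g pointwise with f ∈ M_{K−6}, g ∈ M_{K−4} then f = E₄·u, u ∈ M_{K−10}), S23: `exists_tForm`, `tFun_stabilizer`, `cj_injective_of_stabilizer`, `exists_point_injective`, `cj_pow`, `cj_mdiff` (see Fermat/Agent/S23/AlgData.lean for how they combine into "∃ z, the conjugates of t at z are pairwise distinct"). Mathlib level one: `dimension_level_one`, `levelOne_neg_weight_eq_zero`, E₄, E₆.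
Write M_K := ModularForm (Gam N) K, A_e := ModularForm 𝒮ℒ e (zero for e < 0 or e odd). All identities between forms are stated POINTWISE (∀ z) to avoid weight casts; a form is determined by its function (`DFunLike.ext`).
MATHEMATICAL PROOF.
(0) Level-one facts: (i) every a ∈ A_e is E₄·b + c·E₆^(e/6) with b ∈ A_{e−4}, c ∈ ℂ (c = 0 unless 6 ∣ e, e ≥ 0): because dim A_e − dim A_{e−4} ∈ {0,1} equals 1 iff 6 ∣ e (`dimension_level_one`), and E₆^m ∉ E₄·A (E₄ vanishes at ρ = `Fermat.Agent.S24.rho`, E₆ does not: Div.lean `E₄_rho`, `E₄_ne_zero_or_E₆_ne_zero`), multiplication by E₄ is injective. (ii) dim A_e ≥ L whenever e ≥ 12 L, e even; dim A_e ≤ e/12 + 1.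
(1) For K : ℤ let B_K ⊆ M_K be the subspace E₄·M_{K−4} + E₆·M_{K−6} (images of the linear maps "multiply by E₄/E₆", built with `exists_mulL1`; M_K = 0 for K < 0 or K odd). Choose a finite family (basis of a complement of B_K; M_K is finite-dimensional) g_{K,1..n_K} of M_K. Generators: all g_{K,s}, K ≥ 0.
(2) GENERATION (strong induction on K): every F ∈ M_K is Σ over generators g of weight K' ≤ K of a_g·g with a_g ∈ A_{K−K'}: write F = Σ c_s g_{K,s} + E₄F₁ + E₆F₂ and apply induction to F₁, F₂ (E₄·a ∈ A_{e+4} for a ∈ A_e).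
(3) INDEPENDENCE: if Σ_g a_g·g = 0 (finite sum, a_g ∈ A_{K−κ_g}) then all a_g = 0. Induction on K. By (0)(i) a_g = E₄ b_g + c_g E₆^(m_g), m_g = (K−κ_g)/6. Claim all c_g = 0: otherwise let m := min{m_g : c_g ≠ 0}; then E₆^m·(Σ_{c_g ≠ 0} c_g E₆^(m_g−m) g) = −E₄·(Σ b_g g); applying `reg_E₄_E₆` m times (E₆ is a non-zero-divisor modulo E₄): Σ_{c_g≠0} c_g E₆^(m_g−m) g ∈ E₄·M; the terms with m_g = m all have the same weight κ = K − 6m and the other terms lie in E₆·M_{κ−6}, so Σ_{m_g = m} c_g g ∈ B_κ, contradicting the choice of the g_{κ,s} (independent modulo B_κ). Hence a_g = E₄ b_g, E₄·Σ b_g g = 0, Σ b_g g = 0 in weight K − 4, induction.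
(4) FINITENESS and COUNT ≤ μ := psi N: for any finite set of generators g_1..g_r (weights κ_1..κ_r, all even since odd-weight forms vanish) and K := 12L + max κ (choose it even): by (3) the map ⊕ A_{K−κ_s} → M_K is injective, so r·L ≤ Σ dim A_{K−κ_s} ≤ dim M_K ≤ K·μ/12 + 1 = Lμ + const; L → ∞ gives r ≤ μ. So there are at most μ generators in total (in particular finitely many: n_K = 0 for K large).
(5) COUNT ≥ μ: let t ∈ M_4(Γ) be the form of S23 (`exists_tForm`), whose conjugates cj t j (j : Fin μ) are pairwise distinct functions and, at some point z*, pairwise distinct numbers (`exists_point_injective`). By (2) each power t^a (a < μ; `ModularForm.pow` or iterated `exists_mulL1`-free construction `t.pow a`, weight a*4) is Σ_s a_{a,s} g_s, hence for all z, j: (cj t j z)^a = Σ_s a_{a,s}(z)·cj g_s j z (`cj_pow`, `cj_of_eq_mul`, Basics `cj_of_eq_sum`). So the μ×μ Vandermonde matrix ((cj t j z*)^a)_{a,j} factors as a (μ×r)·(r×μ) product; its determinant is ≠ 0 (`Matrix.det_vandermonde_ne_zero_iff`),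 so r ≥ μ (rank; `Matrix.rank_mul_le`, or: if r < μ pad to square matrices with a zero row/column, det = 0).
(6) Hence exactly μ generators; enumerate them by Fin (psi N) (`Fintype.equivFinOfCardEq`/`Finset.equivFinOfCardEq`), κ i := weight (a natural number: weights are ≥ 0), and (2)+(3) give `IsFreeBasis` (existence for every K and F: coefficients for generators of weight > K are 0 ∈ A_{negative}; uniqueness from (3) applied to the difference of two representations — level-one forms of the same weight form a module: `a − a'`).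
IMPLEMENTATION ADVICE. Index generators by a sigma type (K : ℕ) × Fin (n K) or work with `Finset`s of pairs ⟨weight, form⟩; state (2) and (3) for an abstract family `(ι : Type) [Fintype ι] (κ : ι → ℕ) (g : ∀ i, M_{κ i})` with hypotheses; keep the level-one algebra ((0)), the regular-sequence iteration, the dimension estimates ((4)), the Vandermonde bound ((5)) and the final assembly in separate sub-files with separate workers (5–7 workers). Land a sub-skeleton first.

=== END OF CHAPTER FREE ===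
-/

/-
=== CHAPTER LOCAL ===
LOCAL — file Fermat/Agent/S20/Local.lean: prove `det_Vmat_ne_zero`, `count_mod_four`, `count_mod_six` (statements in the file; hypothesis `hfree : IsFreeBasis κ f`). Black boxes: Basics.lean (`Vmat_smul`, `cj_smul_apply`, `exists_mulL1`, `cj_of_eq_mul`, `cj_add`/`cj_of_eq_sum`, `perm_mul`, `perm_neg`, `perm_one`, `modularForm_odd_weight`), Div.lean (`div_E₆`, `div_E₄`, `div_gen`, `E₆_I`, `E₄_rho`, `E₄_ne_zero_or_E₆_ne_zero`, `denom_S_I`, `denom_Umat_rho`), JInj.lean `j_inj`, S24 JFacts `S_smul_I`, `ST_smul_rho` (`Umat` is definitionally `ModularGroup.S * ModularGroup.T`).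
Notation: μ = psi N, rows v_i(z₀) := (cj (f i) j z₀)_j ∈ ℂ^μ of V(z₀) = Vmat κ f z₀. det V(z₀) ≠ 0 ⟺ the rows are linearly independent (`Matrix.exists_vecMul_eq_zero_iff` : det M = 0 ↔ ∃ v ≠ 0, v ᵥ* M = 0).
KEY STEP (used three times). Let z₀ ∈ ℍ, I₀ a set of indices, c_i ∈ ℂ (i ∈ I₀) with Σ_{i∈I₀} c_i v_i(z₀) = 0, K an integer and G_i ∈ A_{K−κ_i} level-one forms with G_i(z₀) ≠ 0 (i ∈ I₀). Let P be the level-one form for z₀ from Div.lean (P = E₆ if E₆ z₀ = 0 [weight 6]; E₄ if E₄ z₀ = 0 [weight 4]; else E₄³E₆(z₀)² − E₄(z₀)³E₆² [weight 12]); P(z₀) = 0. Then all c_i = 0. Proof: F := Σ_{i∈I₀} (c_i/G_i(z₀))·G_i·f_i ∈ M_K(Γ) (`exists_mulL1`, sums and scalar multiples in `ModularForm (Gam N) K`; mind the weight (K − κ_i) + κ_i = K: produce F with a pointwise formula). Its conjugates: cj F j z = Σ c_i/G_i(z₀)·G_i(z)·cj (f i) j z, so cj F j z₀ = Σ c_i v_i(z₀)_j = 0 for all j. By the division lemma F = P·H with H ∈ M_{K−w}(Γ). By `hfree` H = Σ_i b_i f_i (b_i ∈ A_{K−w−κ_i}), so F = Σ_i (P·b_i)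 f_i; P·b_i is (the function of) a level-one form of weight K − κ_i (construct it: Basics `exists_levelOne_of`, or `ModularForm.mul` + `mcast`); by the uniqueness part of `hfree` applied to F in weight K (two families: i ↦ (c_i/G_i(z₀))•G_i for i ∈ I₀ and 0 otherwise; and i ↦ P·b_i) we get (c_i/G_i(z₀))·G_i(z) = P(z)·b_i(z) for all z; at z = z₀: c_i = 0.
(1) `det_Vmat_ne_zero` at z₀ with E₄ z₀ ≠ 0 and E₆ z₀ ≠ 0: I₀ = all indices; K even, K ≥ max κ + 4; κ_i are even for all i (if κ_i is odd then f_i = 0 by `modularForm_odd_weight`, which contradicts uniqueness in `hfree`: 0 = 0·f_i = 1·f_i... more precisely in weight K = κ_i the form F = 0 has the representations a = 0 and a_i = 1 (constant level-one form of weight 0), a_j = 0; also deduce f_i ≠ 0 this way); G_i := E₄^a·E₆^b with 4a + 6b = K − κ_i (even, ≥ 4), nonzero at z₀.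
(2) at z₀ = UpperHalfPlane.I (E₆ = 0, E₄ ≠ 0): S•I = I, denom S I = i, so by `cj_smul_apply`: cj (f i) j I = i^{κ_i}·cj (f i) (perm N S j) I, i.e. v_i∘σ = ε_i v_i with σ := perm N S, ε_i := i^{−κ_i} = +1 if κ_i ≡ 0 mod 4, −1 if κ_i ≡ 2 mod 4. If Σ c_i v_i = 0 then composing with σ: Σ ε_i c_i v_i = 0, hence Σ_{κ_i ≡ 0 (4)} c_i v_i = 0 and Σ_{κ_i ≡ 2 (4)} c_i v_i = 0 separately. Apply the KEY STEP to each class with K ≡ that class mod 4, K large, G_i := E₄^((K−κ_i)/4) (E₄ I ≠ 0), P = E₆ (`div_E₆`).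
(3) at z₀ = ρ := `Fermat.Agent.S24.rho` (E₄ = 0, E₆ ≠ 0): Umat•ρ = ρ, ω := denom Umat ρ = e^{πi/3}; v_i∘perm N Umat = ω^{−κ_i} v_i; ω^{−κ} depends on κ mod 6 and takes three distinct values for κ ≡ 0, 2, 4 mod 6; split a relation into the three classes (the three eigenvalues are distinct: Vandermonde/Lagrange or apply the operator twice), then KEY STEP with G_i := E₆^((K−κ_i)/6), P = E₄ (`div_E₄`).
(4) general z₀ with E₆ z₀ = 0: Jfun z₀ = 1728 = Jfun I so z₀ = γ•I (`j_inj`; or use `Jfun_I`), and by `Vmat_smul`: V(γ•z) = diag(denom^κ_i)·V(z)·(column permutation), so det V(γ•I) = (∏ denom^κ_i)·(±1)·det V(I) ≠ 0 (`Matrix.det_permute`, `Matrix.det_mul`, `Matrix.det_diagonal`; or transport linear independence of rows directly). Same for E₄ z₀ = 0 with ρ.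
(5) Counting. At I the rows v_i form a basis of ℂ^μ (det ≠ 0) and each lies in the eigenspace E_{ε_i} of the linear operator R : v ↦ v∘σ (R² = id because perm N S * perm N S = perm N (S*S) = perm N (−1) = 1). Hence #{i : κ_i ≡ 0 mod 4} ≤ dim E₊, #{κ_i ≡ 2 mod 4} ≤ dim E₋ (independent vectors in a subspace), the sum of the left sides is μ = dim E₊ + dim E₋ (R diagonalisable: E₊ ⊕ E₋ = ℂ^μ, or just dim E₊ + dim E₋ ≤ μ as the sum is direct), so equalities. dim E₊ = number of σ-orbits = (μ + #Fix σ)/2: E₊ = functions constant on orbits of the involution σ; or via the projection p = (1 + R)/2: dim range p = trace p = (μ + trace R)/2 and trace R = #Fix σ (`LinearMap.IsProj.trace`, trace of a permutation matrix: grep `trace_permutation`/`permMatrix` in Mathlib/LinearAlgebra/Matrix/Permutation.lean). This gives `count_mod_four` (κ i % 4 = 0 as natural numbers; κ_i even).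
 At ρ: R : v ↦ v∘perm N Umat has R³ = id ((S*T)³ = −1 in SL(2,ℤ); `perm_mul`, `perm_neg`, `perm_one`), eigenvalues 1, ζ, ζ² (ζ = e^{2πi/3}); projections p_r = (1 + ζ^{−r}R + ζ^{−2r}R²)/3, trace p_0 = (μ + 2·Fix)/3, trace p_1 = trace p_2 = (μ − Fix)/3 (trace R = trace R² = #Fix, since Fix(σ²) = Fix(σ) for σ³ = 1). Same pigeonhole: the three classes κ_i ≡ 0, 2, 4 mod 6 have sizes dim E_1 = (μ+2Fix)/3 and (μ−Fix)/3, (μ−Fix)/3. This gives `count_mod_six`.
Suggested split (4–6 workers): KEY STEP; generic points (1)+(4); point I (2); point ρ (3); linear algebra of eigenspaces of permutation operators of order 2 and 3 (pure, no modular forms); counting (5).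

=== END OF CHAPTER LOCAL ===
-/

/-
=== CHAPTER CUSP ===
CUSP — file Fermat/Agent/S20/Cusp.lean: prove `isZeroAtImInfty_Delta_mul_inv` and `det_sq_asymp` (hypothesis `hfree : IsFreeBasis κ f`). Black boxes: Basics.lean (`cj_smul_apply`, `perm_mul`, `perm_one`, `perm_i0_iff`, `exists_perm_i0`, `exists_mulL1`, `cj_of_eq_mul`, `cj_of_eq_sum`, `modularForm_odd_weight`), Div.lean `div_Δ`, S23 (`cj_mdiff`, `cj_isBoundedAtImInfty`).
Notation: μ = psi N, X = Fin μ, σ := perm N ModularGroup.T, ζ := e^{2πi/N}, V(z) := Vmat κ f z, q_N(z) := e^{2πiz/N}, m := μ − numOrbits σ.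
(1) σ^N = 1: `perm_mul` gives perm N (T^N) = σ^N; T^N acts trivially on all cosets because γ⁻¹T^Nγ ≡ 1 mod N lies in Γ₀(N) for every γ (for j = perm N γ (i0 N): perm N (T^N) j = perm N (γ·T^N) i0 … use `perm_mul`, `perm_i0_iff`, `exists_perm_i0`). T•z = z + 1, denom T z = 1, so cj g j (z + 1) = cj g (σ j) z for every form g on Γ (`cj_smul_apply`).
(2) Isotypic parts. For a form g ∈ M_K(Γ), j ∈ X, r ∈ {0..N−1}: φ_{g,j,r}(z) := q_N(z)^(−r)·(1/N)·Σ_{a<N} ζ^(−ar)·cj g (σ^a j) z. Facts: (i) 1-periodic in z, holomorphic; (ii) bounded at i∞ — the function H = Σ_a ζ^(−ar) cj g (σ^a j) is bounded, holomorphic, H(z+1) = ζ^r H(z); G := q_N^(−r)H is 1-periodic with |G| ≤ C·e^{2πr·Im z/N}, r/N < 1, so its cusp function g̃ (G = g̃(e^{2πiz})) satisfies q·g̃(q) → 0 as q → 0, hence has a removable singularity and is bounded near 0 (`Complex.differentiableOn_update_limUnder_of_isLittleO`, or expand via `UpperHalfPlane.cuspFunction`/`Function.Periodic.cuspFunction`); (iii) cj g j z = Σ_{r<N} q_N(z)^r·φ_{g,j,r}(z)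 (finite Fourier inversion, Σ_r ζ^(−ar) = N·[a ≡ 0]); (iv) φ_{g,σ j,r} = ζ^r·φ_{g,j,r}; (v) φ is ℂ-linear in g and φ_{G·g,j,r} = G·φ_{g,j,r} for level-one G; (vi) the limit ℓ_{g,j,r} := lim_{Im z→∞} φ_{g,j,r}(z) exists (bounded 1-periodic holomorphic ⇒ cusp function analytic at 0: `UpperHalfPlane.analyticAt_cuspFunction_zero`, `Function.Periodic.tendsto_at_I_inf`-type lemmas; see Fermat/Agent/S23/Nice.lean `IsNice`); (vii) if ℓ_{g,j,r} = 0 then φ_{g,j,r} = O(e^{−2π Im z}) (zero at i∞ + periodic ⇒ exponential decay: Mathlib `UpperHalfPlane.IsZeroAtImInfty`… `exp_decay_atImInfty` in QExpansion.lean/Bounds.lean).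
(3) Matrices. Let p_r (r < N) be the μ×μ matrices (p_r)_{j',j} := (1/N)Σ_a ζ^(−ar)[j' = σ^a j] (so (M p_r)_{i,j} = (1/N)Σ_a ζ^(−ar) M_{i,σ^a j}). They are orthogonal idempotents with Σ_r p_r = 1 (characters of ℤ/N). E(z) := Σ_r q_N(z)^r p_r is invertible with inverse Σ_r q_N(z)^(−r) p_r, and L(z) := V(z)·E(z)⁻¹ has entries L(z)_{i,j} = Σ_r φ_{f_i,j,r}(z). So V = L·E, L(z) → L_∞ (entries Σ_r ℓ_{f_i,j,r}) as Im z → ∞.
(4) det E(z)² = e^{2πi z·m} = q^m, m = μ − numOrbits σ. Proof: det(Σ_r c_r p_r) = ∏_r c_r^(rank p_r) for orthogonal idempotents summing to 1 (simultaneous diagonalisation; or: E(z) = exp(2πi z·Λ) with Λ := Σ_r (r/N)p_r — exp(a·p) = 1 + (e^a − 1)p for idempotent p, commuting exponentials — and `Matrix.det_exp`: det exp = exp trace), so det E(z) = e^{2πi z·tr Λ}, tr Λ = (1/N)Σ_r r·tr p_r. PERMUTATION LEMMA: Σ_{r<N} r·tr(p_r) = N·(μ − numOrbits σ)/2. Proof: tr p_r = (1/N)Σ_a ζ^(−ar)·#Fix(σ^a) = (1/N)Σ_{x∈X} Σ_{a<N, σ^a x = x} ζ^(−ar); for x with minimal period h_x (h_x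 ∣ N; `Function.minimalPeriod`, `Function.isPeriodicPt_iff_minimalPeriod_dvd`) the inner set is the multiples of h_x, and Σ_{r<N} r·Σ_{b<N/h} ζ^(−b h r) = (N/h)·Σ_{r<N, (N/h)∣r} r = N²(h−1)/(2h). So Σ_r r·tr p_r = (N/2)·Σ_x (1 − 1/h_x) = (N/2)(μ − #orbits), as Σ_x 1/h_x = #orbits (each orbit of ⟨σ⟩ has h_x elements; `numOrbits σ = Nat.card (MulAction.orbitRel.Quotient (Subgroup.zpowers σ) X)`; Burnside `MulAction.sum_card_fixedBy_eq_card_orbits_mul_card_group` may help). (Alternative you may prefer: decompose X into σ-orbits and use explicit discrete-Fourier matrices on each orbit; any proof of (4)–(6) is fine.)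
(5) L_∞ is invertible. Suppose c ᵥ* L_∞ = 0 (c : X → ℂ, rows indexed by the basis). Let K := even integer ≥ max κ + 4 (all κ_i are even: else f_i = 0 contradicting freeness), G_i := E₄^a E₆^b ∈ A_{K−κ_i} (G_i → 1 at i∞), F := Σ_i c_i G_i f_i ∈ M_K(Γ) (`exists_mulL1`). Then φ_{F,j,r} = Σ_i c_i G_i φ_{f_i,j,r} → Σ_i c_i ℓ_{f_i,j,r} =: λ_{j,r}. The vector (λ_{j,r})_j lies in the ζ^r-eigenspace of v ↦ v∘σ by (iv) and Σ_r λ_{j,r} = (c ᵥ* L_∞)_j = 0, so every λ_{j,r} = 0 (eigenvectors for distinct eigenvalues; apply p_r). By (vii) and (iii), cj F j = O(e^{−2π Im z}) for all j, so cj F j/Δ is bounded at i∞ (Δ = q∏(1−qⁿ)^24, |Δ(z)| ≥ c·e^{−2π Im z} for Im z ≥ 1: Mathlib Discriminant.lean / `Delta` q-product). `div_Δ`: F = Δ·H, H ∈ M_{K−12}(Γ); `hfree`: H = Σ b_i f_i; uniqueness for F in weight K: c_i G_i(z) = Δ(z) b_i(z) for all z (Δ·b_i is a level-one form of weight K − κ_i: `CuspForm.ofMulDiscriminant`-style or Basics `exists_levelOne_of`); let Im z → ∞: c_i·1 = 0 (b_i bounded, Δ →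 0). So c = 0.
(6) Conclusions. det V(z)² = det L(z)²·det E(z)² = det L(z)²·q^m; Δ(z)/q → 1; det L(z) → det L_∞ ≠ 0: `det_sq_asymp` with c = (det L_∞)². And Δ·V⁻¹ = Δ·E⁻¹·L⁻¹: L(z)⁻¹ → L_∞⁻¹ (bounded), entries of E(z)⁻¹ are O(e^{2π(N−1)Im z/N}), Δ = O(e^{−2π Im z}), so every entry of Δ(z)·V(z)⁻¹ tends to 0: `isZeroAtImInfty_Delta_mul_inv` (`IsZeroAtImInfty g` = `Tendsto g atImInfty (nhds 0)`).
Suggested split (6–8 workers): (1); (2)(i)–(iv) algebra of isotypic parts; (2)(ii),(vi),(vii) analytic lemmas on periodic functions; (3) idempotent matrices; (4) determinant of E + permutation lemma (pure combinatorics/linear algebra; maybe 2 workers); (5); (6).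

=== END OF CHAPTER CUSP ===
-/

/-
=== CHAPTER DUAL ===
DUAL — file Fermat/Agent/S20/Dual.lean: prove
 theorem exists_dual (κ) (f) (hfree : IsFreeBasis κ f) : ∃ g : ∀ i, CuspForm (Gam N) (12 - (κ i : ℤ)), ∀ (i j : Fin (psi N)) (z : ℍ), cj (g i) j z = Δf z * (Vmat κ f z)⁻¹ j i
Black boxes: Local.lean `det_Vmat_ne_zero` (det V(z) ≠ 0 for all z), Cusp.lean `isZeroAtImInfty_Delta_mul_inv` (z ↦ Δ(z)·(V(z)⁻¹) j i tends to 0 at i∞ for all i, j), Basics.lean (`Vmat_smul : Vmat κ f (γ • z) i j = denom γ z ^ (κ i : ℤ) * Vmat κ f z i (perm N γ j)`, `perm_i0_iff`, `exists_perm_i0`, `cj_eq_slash : cj f (perm N γ (i0 N)) = ⇑f ∣[k] γ`, `exists_cuspForm_of`), S23 `cj_mdiff`.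
Proof. Write V(z) := Vmat κ f z (μ×μ, rows = basis index i, columns = coset index j), invertible for every z.
(1) Matrix transformation law: for γ : SL(2,ℤ), V(γ•z) = D·V(z)·Q with D := diagonal (denom γ z ^ κ_i) and Q the permutation matrix Q_{j',j} := [j' = perm N γ j]; hence V(γ•z)⁻¹ = Q⁻¹·V(z)⁻¹·D⁻¹ and, since Q⁻¹ = Qᵀ, for all j, i: (V(γ•z)⁻¹)_{j,i} = (V(z)⁻¹)_{perm N γ j, i}·(denom γ z)^(−κ_i). (`Matrix.inv_eq_left_inv`/`Matrix.mul_inv_rev`, `Matrix.inv_diagonal`, permutation matrices: `Equiv.Perm.permMatrix`/`PEquiv.toMatrix`, or verify directly that the claimed matrix is a two-sided inverse using `Matrix.mul_apply` and a reindexing of the sum by the permutation.)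
(2) For each i define F_i(z) := Δf z * (V(z)⁻¹)_{i0 N, i}. Holomorphic: (V⁻¹) = (det V)⁻¹ • adjugate V (`Matrix.inv_def`), det V and the entries of the adjugate are polynomials in the holomorphic entries cj (f i) j (`cj_mdiff`; see Fermat/Agent/S23/Trans.lean `TransAux.mdiff_det`, `mdiff_adjugate` for exactly this), det V(z) ≠ 0; Δ holomorphic. Transformation law: for γ ∈ Γ₀(N): perm N γ (i0 N) = i0 N, Δ(γ•z) = denom^12·Δ(z) (`CuspForm.discriminant` is a level-one cusp form of weight 12: `SlashInvariantForm.slash_action_eqn''`), so F_i(γ•z) = denom^(12−κ_i)·F_i(z). All translates vanish at i∞: for γ : SL(2,ℤ): (F_i∣[12−κ_i]γ)(z) = F_i(γ•z)·denom^(−(12−κ_i)) = Δ(z)·(V(z)⁻¹)_{perm N γ (i0 N), i}, which tends to 0 at i∞ by `isZeroAtImInfty_Delta_mul_inv`. So `exists_cuspForm_of` gives g_i with ⇑g_i = F_i.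
(3) Conjugates: given j choose γ with perm N γ (i0 N) = j (`exists_perm_i0`); `cj_eq_slash`: cj (g i) j = ⇑(g i) ∣[12−κ_i] γ = (by the computation in (2)) z ↦ Δ(z)·(V(z)⁻¹)_{j,i}.
Use `Classical.choose`/`choose` to assemble the family g. One or two workers suffice (matrix law (1); packaging (2)+(3)).

=== END OF CHAPTER DUAL ===
-/

/-
=== CHAPTER SUMW ===
SUMW — file Fermat/Agent/S20/SumW.lean: prove
 theorem sum_weights (κ) (f) (hfree : IsFreeBasis κ f) : ∑ i, κ i + 6 * numOrbits (perm N ModularGroup.T) = 6 * psi N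
Black boxes: Local.lean `det_Vmat_ne_zero`, Cusp.lean `det_sq_asymp : ∃ c ≠ 0, Tendsto (fun z => (Vmat κ f z).det ^ 2 / Δf z ^ (psi N - numOrbits (perm N T))) atImInfty (nhds c)`, Basics.lean `Vmat_smul`, `exists_levelOne_of`, S23 `cj_mdiff`.
Proof. Let m := psi N − numOrbits (perm N T) (natural subtraction; numOrbits ≤ psi N because a quotient of `Fin (psi N)` has at most psi N elements: `Nat.card_le_card_of_surjective`/`Finite.card_quotient_le`), W := Σ_i κ_i, D(z) := det (Vmat κ f z).
(1) For γ : SL(2,ℤ): D(γ•z) = ε·(denom γ z)^W·D(z) with ε = ±1 the sign of the column permutation: by `Vmat_smul`, V(γ•z) = diagonal(denom^κ_i) * (V(z) with columns permuted by perm N γ); `Matrix.det_mul`, `Matrix.det_diagonal` (∏_i denom^κ_i = denom^W, `Finset.prod_pow_eq_pow_sum`), `Matrix.det_permute'`/`Matrix.det_submatrix_equiv_self`-type lemma for column permutations (sign). Hence D(γ•z)² = denom^(2W)·D(z)².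
(2) Q(z) := D(z)²/Δ(z)^m is holomorphic on ℍ (Δ ≠ 0; D is a polynomial in the holomorphic entries, see Fermat/Agent/S23/Trans.lean `TransAux.mdiff_det`), satisfies Q(γ•z) = denom^(2W − 12m)·Q(z) for all γ : SL(2,ℤ) (Δ has weight 12) and is bounded at i∞ (it converges to c). By `exists_levelOne_of` it is (the function of) a level-one modular form of weight w := 2W − 12m. It is not the zero form (Q(z) ≠ 0: D(z) ≠ 0 by `det_Vmat_ne_zero`). If w < 0 this contradicts `ModularFormClass.levelOne_neg_weight_eq_zero`. So w ≥ 0.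
(3) R(z) := Δ(z)^m/D(z)² = 1/Q(z): holomorphic since D(z) ≠ 0 everywhere, weight −w law, bounded at i∞ since Q → c ≠ 0 (so R → 1/c). Level-one form of weight −w, nonzero, hence −w ≥ 0.
(4) So w = 0: 2W = 12m, W = 6m, and W + 6·numOrbits = 6·psi N.
A single worker suffices.

=== END OF CHAPTER SUMW ===
-/

/-
=== CHAPTER WDIM ===
WPROPS + DIM — files Fermat/Agent/S20/WProps.lean and Fermat/Agent/S20/Dim.lean.
Black boxes: Dual.lean `exists_dual` (cusp forms g_i of weight 12 − κ_i with cj (g i) j z = Δf z * (Vmat κ f z)⁻¹ j i), Local.lean `det_Vmat_ne_zero`, Basics.lean (`modularForm_odd_weight`, `modularForm_neg_weight`, `modularForm_weight_zero`, `exists_trace_mul : ∃ b : ModularForm 𝒮ℒ (k₁ + k₂ - 12), ∀ z, ∑ j, cj s j z * cj f j z = Δf z * b z` for a cusp form s and a modular form f, `cj_congr'`), S23 `cj_i0 : cj f (i0 N) = ⇑f`.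
(A) `weights_props (hfree) : (∀ i, Even (κ i)) ∧ (∀ i, κ i ≤ 10) ∧ #{i | κ i = 0} = 1`.
 (a) f_i ≠ 0 for all i: else in weight K = κ_i the zero form has two representations (a = 0, and a_i = 1 ∈ A_0, a_j = 0 for j ≠ i; the constant function 1 is `(1 : ModularForm 𝒮ℒ 0)`, mind the weight cast κ_i − κ_i = 0 — e.g. use a general lemma "for every e = 0 there is a level-one form of weight e with constant function 1", or `ModularForm.mcast`), contradicting uniqueness in `hfree`. (b) κ_i even: otherwise f_i = 0 by `modularForm_odd_weight`. (c) κ_i ≤ 10: g_i is not the zero function, because cj (g i) j z = Δ(z)·(V(z)⁻¹)_{j,i} and the i-th column of the invertible matrix V(z)⁻¹ is not zero, Δ(z) ≠ 0. A cusp form of weight ≤ 0 on Γ₀(N) is zero: weight < 0 by `modularForm_neg_weight` (view the cusp form as a modular form: same function; build `ModularForm (Gam N) k` from the cusp form fields or use the existing coercion `CuspForm → ModularForm`), weight 0: constant (`modularForm_weight_zero`)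 and tends to 0 at i∞ (`CuspFormClass.zero_at_infty`), so 0. Hence 12 − κ_i > 0, and κ_i even gives κ_i ≤ 10. (d) exactly one κ_i = 0: apply `hfree` to F := 1 ∈ M_0(Γ) (`(1 : ModularForm (Gam N) 0)`): 1 = Σ a_i f_i with a_i ∈ A_{−κ_i}, which is 0 unless κ_i = 0 (`levelOne_neg_weight_eq_zero`); so some κ_i = 0. If κ_i = κ_{i'} = 0 with i ≠ i', then f_i, f_{i'} are nonzero constants c, c' (`modularForm_weight_zero`) and 0 ∈ M_0 has the nonzero representation a_i = c', a_{i'} = −c (constants, weight 0 − 0), contradiction.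
(B) `finrank_S2 (hfree) : Module.finrank ℂ (CuspForm (Gam N) 2) = #{i | κ i = 10}`. Let T := {i | κ i = 10}; for i ∈ T, g_i has weight 12 − 10 = 2 (transport along the equality of weights: define h_i : CuspForm (Gam N) 2 with the same function, e.g. via a cast lemma or by rebuilding the structure; conjugates only depend on the function and the weight: `cj_congr'`).
 (a) Linear independence of (h_i)_{i∈T}: if Σ_{i∈T} b_i h_i = 0 then for every j, z: 0 = Σ_i b_i cj (h_i) j z = Δ(z)·Σ_i (V(z)⁻¹)_{j,i} b_i (cj is additive and ℂ-homogeneous in the form: prove the cusp-form versions of Basics `cj_add`/`cj_smul`, or go through slash linearity), i.e. V(z)⁻¹ *ᵥ b = 0 (b extended by 0 outside T), so b = 0.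
 (b) Spanning: let s ∈ S_2(Γ). For each i, `exists_trace_mul s (f i)` gives b_i ∈ A_{2 + κ_i − 12} with Σ_j cj s j z · V(z)_{i,j} = Δ(z)·b_i(z). As κ_i ≤ 10: b_i = 0 if κ_i < 10 (negative weight), and b_i is a constant β_i if κ_i = 10 (`ModularFormClass.levelOne_weight_zero_const`). So V(z) *ᵥ (cj s · z) = Δ(z)·β (β_i := 0 for κ_i ≠ 10), hence cj s j z = Σ_i (V(z)⁻¹)_{j,i}·Δ(z)·β_i = Σ_{i∈T} β_i·cj (g i) j z; at j = i0 N (`cj_i0`): s(z) = Σ_{i∈T} β_i h_i(z). So s = Σ β_i h_i.
 (c) Conclude: (h_i)_{i∈T} is a basis of `CuspForm (Gam N) 2`, so finrank = card T (`Module.finrank_eq_card_basis`, `Basis.mk`, or `finrank_eq_card_of_linearIndependent_of_span`...; `Fintype.card {i // κ i = 10} = (Finset.univ.filter _).card`).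
Split: one worker for WProps.lean, one or two for Dim.lean (Dim uses `weights_props` as a black box).

=== END OF CHAPTER WDIM ===
-/

/-
=== CHAPTER NUMGROUP ===
NUMERICS + GROUP — two small independent files: Fermat/Agent/S20/Numerics.lean and Fermat/Agent/S20/Group.lean (do both; you may spawn one worker for one of them).
(A) Numerics.lean, `numerics` (statement in the file; pure arithmetic, imports only Mathlib). Let n_j := #{i | κ i = j} for j ∈ J := {0,2,4,6,8,10}. Since every κ_i is even and ≤ 10, κ_i ∈ J; then n = Σ_{j∈J} n_j, Σ_i κ_i = Σ_{j∈J} j·n_j, #{κ % 4 = 0} = n_0 + n_4 + n_8, #{κ % 6 = 0} = n_0 + n_6, #{κ % 6 = 2} = n_2 + n_8, #{κ % 6 = 4} = n_4 + n_10 (partition `Finset.univ` by the value of κ: `Finset.card_eq_sum_card_fiberwise`, `Finset.sum_fiberwise_of_maps_to`, or prove `Finset.univ.filter (κ · % 4 = 0) = filter (κ · = 0) ∪ filter (κ · = 4) ∪ filter (κ · = 8)` with disjointness; `decide`/`interval_cases`/`omega` for the case analysis of κ_i ∈ {0,…,10} even).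 Then with n_0 = 1 the hypotheses give a linear system whose consequence is 12·n_10 = 12 + n − 3·F2 − 4·F3 − 6·c in ℤ (derivation: a := n_2 + n_8 = n_4 + n_10; hsum: 6a + 6(n_6 + n_8 + n_10) = 6n − 6c; h4: 2(1 + n_4 + n_8) = n + F2; h6: 3(1 + n_6) = n + 2·F3; eliminate) — `omega` or `linarith` should do it after the counting identities; finish by `push_cast`/`field_simp`/`linarith` in ℚ.
(B) Group.lean: prove `psi_eq_dedekindPsi`, `card_fixed_S`, `card_fixed_U`, `numOrbits_T` by TRANSFER from Fermat/Agent/S24/Comb.lean (owned by another team; statements frozen, proofs may still be sorry — use them as black boxes): with `Cosets N := SL(2, ℤ) ⧸ CongruenceSubgroup.Gamma0 N` (left cosets, left-multiplication action of SL(2,ℤ)), `cosetCard N := Nat.card (Cosets N)`, `orbCard N g := Nat.card (MulAction.orbitRel.Quotient (Subgroup.zpowers g) (Cosets N))` (Fermat/Agent/S24/Basic.lean):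
  cosetCard_eq : cosetCard N = dedekindPsi N;  card_fixedBy_S : Nat.card (MulAction.fixedBy (Cosets N) ModularGroup.S) = nuTwo N;  card_fixedBy_ST : Nat.card (MulAction.fixedBy (Cosets N) (ModularGroup.S * ModularGroup.T)) = nuThree N;  orbCard_T : orbCard N ModularGroup.T = cuspCount N.
 Our side: `Quo N = ↥𝒮ℒ ⧸ (Gam N).subgroupOf 𝒮ℒ` (𝒮ℒ = range of mapGL ℝ : SL(2,ℤ) → GL(2,ℝ), `Gam N` = image of Γ₀(N)), `psi N = Nat.card (Quo N)`, `quoEquiv N : Fin (psi N) ≃ Quo N`, and `perm N γ = (quoEquiv N).trans ((MulAction.toPerm (⟨mapGL ℝ γ, _⟩ : ↥𝒮ℒ)⁻¹).trans (quoEquiv N).symm)` (S20/Defs.lean), i.e. perm N γ is the action of γ⁻¹ on cosets transported to Fin (psi N).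
 Step 1: an equivalence e₀ : Cosets N ≃ Quo N, ⟦γ⟧ ↦ ⟦⟨mapGL ℝ γ, _⟩⟧, equivariant: e₀ (γ • x) = ⟨mapGL ℝ γ, _⟩ • e₀ x. (The group isomorphism φ : SL(2,ℤ) ≃* 𝒮ℒ = `MonoidHom.ofInjective` of `Matrix.SpecialLinearGroup.mapGL ℝ` (injective: `Matrix.SpecialLinearGroup.mapGL_injective`) maps Γ₀(N) onto (Gam N).subgroupOf 𝒮ℒ; `QuotientGroup.congr`-style equivalence of coset spaces, or define both directions with `Quotient.map'` and check `QuotientGroup.leftRel_apply`.) Then e := (quoEquiv N).trans e₀.symm : Fin (psi N) ≃ Cosets N satisfies e (perm N γ j) = γ⁻¹ • e j.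
 Step 2: psi N = Nat.card (Quo N) = Nat.card (Cosets N) = cosetCard N (`Nat.card_congr`) = dedekindPsi N.
 Step 3: {j | perm N γ j = j} ≃ MulAction.fixedBy (Cosets N) γ⁻¹ = fixedBy (Cosets N) γ (`MulAction.fixedBy_inv`); card of the Finset filter = Nat.card of the subtype (`Fintype.card_subtype`, `Nat.card_eq_fintype_card`). γ = S gives nuTwo; `Umat` unfolds to `ModularGroup.S * ModularGroup.T`, giving nuThree.
 Step 4: numOrbits (perm N T) = orbCard N T: under e the orbit relation of `Subgroup.zpowers (perm N T)` on Fin (psi N) corresponds to that of `Subgroup.zpowers T` on Cosets N (e ((perm N T)^k j) = T^(−k) • e j; the orbits of ⟨T⟩ and of ⟨T⁻¹⟩ coincide), so the two orbit quotients are in bijection (`Quotient.congr`, `Nat.card_congr`).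

=== END OF CHAPTER NUMGROUP ===
-/
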