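import Fermat.Agent.S20.Dual

/-!
# S20 / chapter E3: the weights of a free basis are even, at most `10`, and exactly one is `0`.
-/

set_option autoImplicit false

open UpperHalfPlane ModularForm CongruenceSubgroup
open scoped MatrixGroups ModularForm Manifold
open Fermat.Agent.S23

namespace Fermat.Agent.S20

variable {N : ℕ} [NeZero N]

/-- A constant level-one form of any weight equal to `0`. -/
private theorem exists_const {e : ℤ} (he : e = 0) (c : ℂ) :
    ∃ a : ModularForm 𝒮ℒ e, ∀ z : ℍ, a z = c := by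
  subst he
  exact ⟨ModularForm.const c, fun z => rfl⟩

/-- A form of weight (equal to) `0` is constant. -/
private theorem const_of_weight_zero {K : ℤ} (hK : K = 0) (F : ModularForm (Gam N) K) :
    ∃ c : ℂ, ∀ z : ℍ, F z = c := by
  subst hK
  exact modularForm_weight_zero F

omit [NeZero N] in
/-- Constant coefficient vectors supported on the indices of weight `K`. -/
private theorem exists_coeffs (κ : Fin (psi N) → ℕ) (K : ℤ) (v : Fin (psi N) → ℂ)
    (hv : ∀ j, v j ≠ 0 → (κ j : ℤ) = K) :
    ∃ a : ∀ j, ModularForm 𝒮ℒ (K - (κ j : ℤ)), ∀ (j : Fin (psi N)) (z : ℍ), a j z = v j := by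
  have key : ∀ j, ∃ a : ModularForm 𝒮ℒ (K - (κ j : ℤ)), ∀ z : ℍ, a z = v j := by
    intro j
    by_cases h : v j = 0
    · exact ⟨0, fun z => by simp [h]⟩
    · exact exists_const (by rw [hv j h]; ring) (v j)
  choose a ha using key
  exact ⟨a, ha⟩

/-- A constant linear relation between the basis forms of a fixed weight is trivial. -/
private theorem coeffs_eq_zero (κ : Fin (psi N) → ℕ) (f : ∀ i, ModularForm (Gam N) (κ i))
    (hfree : IsFreeBasis κ f) (K : ℤ) (v : Fin (psi N) → ℂ)
    (hv : ∀ j, v j ≠ 0 → (κ j : ℤ) = K) (hsum : ∀ z : ℍ, ∑ j, v j * f j z = 0) :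
    ∀ j, v j = 0 := by
  obtain ⟨a', ha'⟩ := exists_coeffs κ K v hv
  obtain ⟨a, -, huniq⟩ := hfree K 0
  have h0 : (0 : ∀ j, ModularForm 𝒮ℒ (K - (κ j : ℤ))) = a := huniq 0 (fun z => by simp)
  have h1 : a' = a := huniq a' (fun z => by simp [ha', hsum z])
  intro j
  have h2 := congrFun (h1.trans h0.symm) j
  have h3 := ha' j UpperHalfPlane.I
  rw [h2] at h3
  simpa using h3.symm

/-- (a) The basis forms are not zero. -/
private theorem f_ne_zero (κ : Fin (psi N) → ℕ) (f : ∀ i, ModularForm (Gam N) (κ i))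
    (hfree : IsFreeBasis κ f) (i : Fin (psi N)) : ¬ ∀ z : ℍ, f i z = 0 := by
  intro hcon
  have h := coeffs_eq_zero κ f hfree (κ i) (fun j => if j = i then 1 else 0)
    (fun j hj => by
      by_cases hji : j = i
      · rw [hji]
      · simp [hji] at hj)
    (fun z => by simp [hcon z]) i
  simp at h

/-- A cusp form of weight `≤ 0` vanishes. -/
private theorem cuspForm_eq_zero {k : ℤ} (hk : k ≤ 0) (g : CuspForm (Gam N) k) :
    ∀ z : ℍ, g z = 0 := by
  rcases hk.lt_or_eq with hlt | heq
  · have h := modularForm_neg_weight hlt (ModularFormClass.modularForm g)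
    intro z
    have h2 := congrArg (fun F : ModularForm (Gam N) k => F z) h
    simpa using h2
  · obtain ⟨c, hc⟩ := const_of_weight_zero heq (ModularFormClass.modularForm g)
    have hc' : ∀ z : ℍ, g z = c := hc
    have hz : IsZeroAtImInfty (g : ℍ → ℂ) := CuspFormClass.zero_at_infty g
    have hconst : (g : ℍ → ℂ) = fun _ => c := funext hc'
    rw [hconst] at hz
    have hc0 : c = 0 := tendsto_nhds_unique tendsto_const_nhds hz
    intro z
    rw [hc' z, hc0]

/-- (c) the weights are at most `10`. -/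
private theorem kappa_le (κ : Fin (psi N) → ℕ) (f : ∀ i, ModularForm (Gam N) (κ i))
    (hfree : IsFreeBasis κ f) (heven : ∀ i, Even (κ i)) (i : Fin (psi N)) : κ i ≤ 10 := by
  by_contra hcon
  rw [not_le] at hcon
  obtain ⟨g, hg⟩ := exists_dual κ f hfree
  have hk : (12 : ℤ) - (κ i : ℤ) ≤ 0 := by
    obtain ⟨m, hm⟩ := heven i
    omega
  have hg0 := cuspForm_eq_zero hk (g i)
  have hcj : ∀ (j : Fin (psi N)) (z : ℍ), cj (g i) j z = 0 := by
    intro j z
    obtain ⟨γ, rfl⟩ := exists_perm_i0 (N := N) j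
    have h := cj_smul_apply (g i) γ (i0 N) z
    rw [cj_i0, hg0] at h
    have hd : denom γ z ^ ((12 : ℤ) - (κ i : ℤ)) ≠ 0 := zpow_ne_zero _ (denom_ne_zero γ z)
    exact (mul_eq_zero.mp h.symm).resolve_left hd
  have hcol : ∀ j, (Vmat κ f UpperHalfPlane.I)⁻¹ j i = 0 := by
    intro j
    have h := hg i j UpperHalfPlane.I
    rw [hcj] at h
    exact (mul_eq_zero.mp h.symm).resolve_left (ModularForm.discriminant_ne_zero _)
  have hdet := det_Vmat_ne_zero κ f hfree UpperHalfPlane.I
  have hmul : Vmat κ f UpperHalfPlane.I * (Vmat κ f UpperHalfPlane.I)⁻¹ = 1 :=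
    Matrix.mul_nonsing_inv _ (isUnit_iff_ne_zero.mpr hdet)
  have h := congrFun (congrFun hmul i) i
  rw [Matrix.mul_apply] at h
  simp [hcol] at h

/-- (d1) some weight is `0`. -/
private theorem exists_kappa_zero (κ : Fin (psi N) → ℕ) (f : ∀ i, ModularForm (Gam N) (κ i))
    (hfree : IsFreeBasis κ f) : ∃ i, κ i = 0 := by
  by_contra hcon
  rw [not_exists] at hcon
  obtain ⟨a, ha, -⟩ := hfree 0 (ModularForm.const 1)
  have h := ha UpperHalfPlane.I
  have ha0 : ∀ i, a i UpperHalfPlane.I = 0 := by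
    intro i
    have hlt : (0 : ℤ) - (κ i : ℤ) < 0 := by
      have := Nat.pos_of_ne_zero (hcon i)
      omega
    have h2 := ModularFormClass.levelOne_neg_weight_eq_zero hlt (a i)
    rw [h2]
    rfl
  simp [ha0] at h

/-- (d2) at most one weight is `0`. -/
private theorem kappa_zero_unique (κ : Fin (psi N) → ℕ) (f : ∀ i, ModularForm (Gam N) (κ i))
    (hfree : IsFreeBasis κ f) (i i' : Fin (psi N)) (hi : κ i = 0) (hi' : κ i' = 0) : i = i' := by
  by_contra hne
  obtain ⟨c, hc⟩ := const_of_weight_zero (by rw [hi]; rfl) (f i)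
  obtain ⟨c', hc'⟩ := const_of_weight_zero (by rw [hi']; rfl) (f i')
  have h := coeffs_eq_zero κ f hfree 0
    (fun j => (if j = i then c' else 0) + (if j = i' then -c else 0))
    (fun j hj => by
      by_cases hji : j = i
      · rw [hji, hi]; rfl
      · by_cases hji' : j = i'
        · rw [hji', hi']; rfl
        · simp [hji, hji'] at hj)
    (fun z => by
      simp only [add_mul, Finset.sum_add_distrib, ite_mul, zero_mul, Finset.sum_ite_eq',
        Finset.mem_univ, if_true, hc z, hc' z]
      ring) i'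
  have hi'i : ¬ i' = i := fun h => hne h.symm
  simp only [hi'i, if_false, if_true, zero_add, neg_eq_zero] at h
  exact f_ne_zero κ f hfree i (fun z => by rw [hc z, h])

theorem weights_props (κ : Fin (psi N) → ℕ) (f : ∀ i, ModularForm (Gam N) (κ i))
    (hfree : IsFreeBasis κ f) :
    (∀ i, Even (κ i)) ∧ (∀ i, κ i ≤ 10) ∧ (Finset.univ.filter fun i => κ i = 0).card = 1 := by
  have heven : ∀ i, Even (κ i) := by
    intro i
    by_contra hodd
    rw [Nat.not_even_iff_odd] at hodd
    have hodd' : Odd ((κ i : ℕ) : ℤ) := by exact_mod_cast hodd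
    have h := modularForm_odd_weight hodd' (f i)
    exact f_ne_zero κ f hfree i (fun z => by rw [h]; rfl)
  refine ⟨heven, kappa_le κ f hfree heven, ?_⟩
  rw [Finset.card_eq_one]
  obtain ⟨i, hi⟩ := exists_kappa_zero κ f hfree
  refine ⟨i, ?_⟩
  ext j
  simp only [Finset.mem_filter, Finset.mem_univ, true_and, Finset.mem_singleton]
  constructor
  · intro hj
    exact kappa_zero_unique κ f hfree j i hj hi
  · rintro rfl
    exact hi

end Fermat.Agent.S20
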